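/-
Project ONE MACHINE (S43), block [F] EASY, leaf F0b (helper15).  Prefix `twf_`.

`twf_not_good_of_dvd_abc` : a prime `q ∣ a b c` is a BAD prime (`q ∣ Δ`) of EVERY integral model `W`
of the Frey curve (the `j`-invariant `c₄³/Δ` is model-independent and has a pole at `q`).
Consequence: in `P.ModularRepOfLevel M` the congruence at a prime `q ∣ a b c` is vacuous, so a prime
`q` of a conductor level may be dropped from the level without any condition at `q`.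
-/
import Mathlib
import Fermat.Agent.S05.FreySpecifics
import Fermat.Prelude.Def_FLTPrelim_Modularity
import Fermat.Prelude.Def_FreyPackage_IsConductorLevel

set_option autoImplicit false

namespace Fermat.Agent.TW

open Fermat.Agent.S05 WeierstrassCurve

/-- `c₄` of the Frey curve. -/
theorem twf_freyCurve_c₄ (P : FreyPackage) :
    P.freyCurve.c₄ = fA P ^ 2 + fA P * fB P + fB P ^ 2 := by
  rw [WeierstrassCurve.c₄, freyCurve_b₂, freyCurve_b₄]; ring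

/-- the model-independent identity `c₄(W)³ (a^p b^p c^p)² = 256 Δ(W) (a^{2p} + a^p b^p + b^{2p})³`
for every integral model `W` of the Frey curve. -/
theorem twf_model_identity (P : FreyPackage) (W : WeierstrassCurve ℤ)
    (hW : W.IsIntegralModelOf P.freyCurve) :
    W.c₄ ^ 3 * (P.a ^ P.p * P.b ^ P.p * P.c ^ P.p) ^ 2 =
      256 * W.Δ * ((P.a ^ P.p) ^ 2 + P.a ^ P.p * P.b ^ P.p + (P.b ^ P.p) ^ 2) ^ 3 := by
  obtain ⟨C, hC⟩ := hW
  have hΔ : ((W.Δ : ℤ) : ℚ) = (C.u⁻¹ : ℚˣ) ^ 12 * P.freyCurve.Δ := by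
    have h := congrArg WeierstrassCurve.Δ hC
    rw [variableChange_Δ, map_Δ] at h
    rw [h]; rfl
  have hc : ((W.c₄ : ℤ) : ℚ) = (C.u⁻¹ : ℚˣ) ^ 4 * P.freyCurve.c₄ := by
    have h := congrArg WeierstrassCurve.c₄ hC
    rw [variableChange_c₄, map_c₄] at h
    rw [h]; rfl
  have key : ((W.c₄ : ℤ) : ℚ) ^ 3 * P.freyCurve.Δ = ((W.Δ : ℤ) : ℚ) * P.freyCurve.c₄ ^ 3 := by
    rw [hΔ, hc]; ring
  rw [freyCurve_Δ, twf_freyCurve_c₄] at key
  have key2 : ((W.c₄ : ℤ) : ℚ) ^ 3 * (fA P * fB P * fC P) ^ 2 =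
      256 * ((W.Δ : ℤ) : ℚ) * (fA P ^ 2 + fA P * fB P + fB P ^ 2) ^ 3 := by
    have h256 : (256 : ℚ) ≠ 0 := by norm_num
    field_simp at key
    linarith [key]
  unfold fA fB fC at key2
  exact_mod_cast key2

/-- **a prime dividing `a b c` is bad for every integral model of the Frey curve.** -/
theorem twf_not_good_of_dvd_abc (P : FreyPackage) {q : ℕ} (hq : q.Prime)
    (hqabc : (q : ℤ) ∣ P.a * P.b * P.c) (W : WeierstrassCurve ℤ)
    (hW : W.IsIntegralModelOf P.freyCurve) : ¬ W.IsGoodPrimeFor q := by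
  intro hgood
  have hgood' : ¬ (q : ℤ) ∣ W.Δ := hgood
  have hqp : Prime (q : ℤ) := Nat.prime_iff_prime_int.mp hq
  have hid := twf_model_identity P W hW
  set A : ℤ := P.a ^ P.p with hA
  set B : ℤ := P.b ^ P.p with hB
  set C : ℤ := P.c ^ P.p with hC
  have hABC : A + B = C := P.hFLT
  have hp0 : P.p ≠ 0 := P.hp0
  -- no prime divides two of `a, b, c`
  have hab : ¬ ((q : ℤ) ∣ P.a ∧ (q : ℤ) ∣ P.b) := by
    rintro ⟨h1, h2⟩
    have h3 : (q : ℤ) ∣ gcd P.a P.b := dvd_gcd h1 h2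
    rw [P.hgcdab] at h3
    exact hqp.not_dvd_one h3
  have hac : ¬ ((q : ℤ) ∣ P.a ∧ (q : ℤ) ∣ P.c) := by
    rintro ⟨h1, h2⟩
    have h3 : (q : ℤ) ∣ gcd P.a P.c := dvd_gcd h1 h2
    rw [P.hgcdac] at h3
    exact hqp.not_dvd_one h3
  have hbc : ¬ ((q : ℤ) ∣ P.b ∧ (q : ℤ) ∣ P.c) := by
    rintro ⟨h1, h2⟩
    have h3 : (q : ℤ) ∣ gcd P.b P.c := dvd_gcd h1 h2
    rw [P.hgcdbc] at h3
    exact hqp.not_dvd_one h3
  have hpowA : (q : ℤ) ∣ A ↔ (q : ℤ) ∣ P.a :=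
    ⟨fun h => hqp.dvd_of_dvd_pow h, fun h => dvd_pow h hp0⟩
  have hpowB : (q : ℤ) ∣ B ↔ (q : ℤ) ∣ P.b :=
    ⟨fun h => hqp.dvd_of_dvd_pow h, fun h => dvd_pow h hp0⟩
  have hpowC : (q : ℤ) ∣ C ↔ (q : ℤ) ∣ P.c :=
    ⟨fun h => hqp.dvd_of_dvd_pow h, fun h => dvd_pow h hp0⟩
  -- `q ∣ A B C`
  have hqABC : (q : ℤ) ∣ A * B * C := by
    rcases hqp.dvd_or_dvd hqabc with h | h
    · rcases hqp.dvd_or_dvd h with h | h
      · exact Dvd.dvd.mul_right (Dvd.dvd.mul_right (hpowA.2 h) _) _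
      · exact Dvd.dvd.mul_right (Dvd.dvd.mul_left (hpowB.2 h) _) _
    · exact Dvd.dvd.mul_left (hpowC.2 h) _
  -- `q ∤ c₄(E)`
  have hc4 : ¬ (q : ℤ) ∣ A ^ 2 + A * B + B ^ 2 := by
    intro hd
    rcases hqp.dvd_or_dvd hqABC with h | h
    · rcases hqp.dvd_or_dvd h with h | h
      · -- `q ∣ A`, so `q ∣ B²`
        have h1 : (q : ℤ) ∣ B ^ 2 := by
          have : B ^ 2 = (A ^ 2 + A * B + B ^ 2) - A * (A + B) := by ring
          rw [this]
          exact dvd_sub hd (Dvd.dvd.mul_right h _)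
        exact hab ⟨hpowA.1 h, hpowB.1 (hqp.dvd_of_dvd_pow h1)⟩
      · have h1 : (q : ℤ) ∣ A ^ 2 := by
          have : A ^ 2 = (A ^ 2 + A * B + B ^ 2) - B * (A + B) := by ring
          rw [this]
          exact dvd_sub hd (Dvd.dvd.mul_right h _)
        exact hab ⟨hpowA.1 (hqp.dvd_of_dvd_pow h1), hpowB.1 h⟩
    · -- `q ∣ C = A + B`, so `q ∣ A B`
      have h1 : (q : ℤ) ∣ A * B := by
        have : A * B = (A + B) ^ 2 - (A ^ 2 + A * B + B ^ 2) := by ring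
        rw [this, hABC]
        exact dvd_sub (dvd_pow h two_ne_zero) hd
      rcases hqp.dvd_or_dvd h1 with h2 | h2
      · exact hac ⟨hpowA.1 h2, hpowC.1 h⟩
      · exact hbc ⟨hpowB.1 h2, hpowC.1 h⟩
  by_cases hq2 : q = 2
  · -- `q = 2`: `2^5 ∣ B`, `A` odd
    subst hq2
    have h2b : (2 : ℤ) ∣ P.b := (ZMod.intCast_zmod_eq_zero_iff_dvd P.b 2).1 P.hb2
    have h5 : (2 : ℤ) ^ 5 ∣ B := by
      obtain ⟨k, hk⟩ := h2b
      have hp5 := P.hp5
      have : B = 2 ^ 5 * (2 ^ (P.p - 5) * k ^ P.p) := by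
        rw [hB, hk, mul_pow]
        have : (2 : ℤ) ^ P.p = 2 ^ 5 * 2 ^ (P.p - 5) := by
          rw [← pow_add]; congr 1; omega
        rw [this]; ring
      exact ⟨_, this⟩
    obtain ⟨B', hB'⟩ := h5
    have hcast : ((2 : ℕ) : ℤ) = 2 := by norm_num
    rw [hcast] at hgood' hc4
    -- `2^10 ∣ 256 Δ c₄³`, so `4 ∣ Δ c₄³`
    have h4 : (4 : ℤ) ∣ W.Δ * (A ^ 2 + A * B + B ^ 2) ^ 3 := by
      have e : 256 * (W.Δ * (A ^ 2 + A * B + B ^ 2) ^ 3) =
          256 * (4 * (W.c₄ ^ 3 * (A * B' * C) ^ 2)) := by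
        have : W.c₄ ^ 3 * (A * B * C) ^ 2 = 256 * (4 * (W.c₄ ^ 3 * (A * B' * C) ^ 2)) := by
          rw [hB']; ring
        rw [← this, hid]; ring
      have e' := mul_left_cancel₀ (by norm_num : (256 : ℤ) ≠ 0) e
      exact ⟨_, e'⟩
    have h2 : (2 : ℤ) ∣ W.Δ * (A ^ 2 + A * B + B ^ 2) ^ 3 := Dvd.dvd.trans (by norm_num) h4
    have hp2 : Prime (2 : ℤ) := Int.prime_two
    rcases hp2.dvd_or_dvd h2 with h | h
    · exact hgood' h
    · exact hc4 (hp2.dvd_of_dvd_pow h)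
  · -- `q` odd
    have h1 : (q : ℤ) ∣ W.c₄ ^ 3 * (A * B * C) ^ 2 :=
      Dvd.dvd.mul_left (dvd_pow hqABC two_ne_zero) _
    rw [hid] at h1
    rcases hqp.dvd_or_dvd h1 with h | h
    · rcases hqp.dvd_or_dvd h with h | h
      · -- `q ∣ 256 = 2^8`
        have h256 : (256 : ℤ) = 2 ^ 8 := by norm_num
        rw [h256] at h
        have h2 : (q : ℤ) ∣ 2 := hqp.dvd_of_dvd_pow h
        have h3 : q ∣ 2 := by exact_mod_cast h2
        exact hq2 ((Nat.prime_dvd_prime_iff_eq hq Nat.prime_two).mp h3)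
      · exact hgood' h
    · exact hc4 (hqp.dvd_of_dvd_pow h)

/-- the same for a prime of a conductor level. -/
theorem twf_not_good_of_dvd_level (P : FreyPackage) {N q : ℕ} (hcond : P.IsConductorLevel N)
    (hq : q.Prime) (hqN : q ∣ N) (W : WeierstrassCurve ℤ)
    (hW : W.IsIntegralModelOf P.freyCurve) : ¬ W.IsGoodPrimeFor q :=
  twf_not_good_of_dvd_abc P hq (hcond.support q hq hqN) W hW

end Fermat.Agent.TW
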