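/-
Project ONE MACHINE (S43), block [F] EASY, cell [F-in] ENTRY, part 1 (helper15).  Prefix `twfe_`.

`twfe_exists_theta` : a normalised eigenform `f` of level `N` whose good coefficients are congruent
modulo a maximal ideal `𝔪 ∋ p` of `ℤ̄` to INTEGERS `a_ℓ` (`ℓ ∤ N`, `ℓ ∉ S`, `S ⊇ {ℓ ∣ N}`) gives a ring
homomorphism `θ : 𝕋_S(N) → ZMod p` with `θ(T_ℓ) = a_ℓ mod p`: the eigencharacter of `f`
(`prs_eigenchar`) reduced modulo `𝔪` takes its values in the prime field.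
-/
import Mathlib
import Fermat.Agent.JT3.Pack.Res.Eigenchar

set_option autoImplicit false
set_option linter.unusedSectionVars false
set_option linter.style.haveILetI false

noncomputable section

open CongruenceSubgroup CuspForm ModularFormClass
open Fermat.Agent.JT3

namespace Fermat.Agent.TW

theorem twfe_exists_theta {p N : ℕ} [NeZero N] (hp : p.Prime) (S : Set ℕ)
    (hNS : ∀ q : ℕ, q.Prime → q ∣ N → q ∈ S)
    {f : CuspForm (Gamma0 N) 2} (hf : f.IsNormalizedEigenform)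
    (𝔪 : Ideal (integralClosure ℤ ℂ)) (h𝔪 : 𝔪.IsMaximal)
    (hp𝔪 : ((p : ℕ) : integralClosure ℤ ℂ) ∈ 𝔪) (a : ℕ → ℤ)
    (hcong : ∀ ℓ : ℕ, ℓ.Prime → ¬ ℓ ∣ N → ℓ ∉ S →
      ∃ b : integralClosure ℤ ℂ, (b : ℂ) = qCoeff f ℓ ∧
        b - ((a ℓ : ℤ) : integralClosure ℤ ℂ) ∈ 𝔪) :
    ∃ θ : heckeAlgebra N 2 S →+* ZMod p,
      ∀ (ℓ : ℕ) (hℓ : ℓ.Prime) (hℓN : ¬ ℓ ∣ N) (hℓS : ℓ ∉ S),
        θ (heckeAlgebra.T hℓ hℓN hℓS) = ((a ℓ : ℤ) : ZMod p) := by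
  classical
  haveI : Fact p.Prime := ⟨hp⟩
  letI : Field (integralClosure ℤ ℂ ⧸ 𝔪) := Ideal.Quotient.field 𝔪
  haveI hchar : CharP (integralClosure ℤ ℂ ⧸ 𝔪) p := by
    rw [CharP.charP_iff_prime_eq_zero hp]
    have : ((p : integralClosure ℤ ℂ ⧸ 𝔪)) = Ideal.Quotient.mk 𝔪 (p : integralClosure ℤ ℂ) :=
      (map_natCast (Ideal.Quotient.mk 𝔪) p).symm
    rw [this, Ideal.Quotient.eq_zero_iff_mem]
    exact hp𝔪
  -- the eigencharacter with values in `ℤ̄`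
  let χ : heckeAlgebra N 2 S →+* ℂ := prs_eigenchar hf S hNS
  let χ' : heckeAlgebra N 2 S →+* integralClosure ℤ ℂ :=
    χ.codRestrict (integralClosure ℤ ℂ).toSubring (fun t => prs_eigenchar_isIntegral hf S hNS t)
  have hχ' : ∀ t, ((χ' t : integralClosure ℤ ℂ) : ℂ) = χ t := fun t => rfl
  let θ₀ : heckeAlgebra N 2 S →+* (integralClosure ℤ ℂ ⧸ 𝔪) := (Ideal.Quotient.mk 𝔪).comp χ'
  let ι : ZMod p →+* (integralClosure ℤ ℂ ⧸ 𝔪) := ZMod.castHom (dvd_refl p) _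
  have hι : Function.Injective ι := ι.injective
  -- values on the generators
  have hT : ∀ (ℓ : ℕ) (hℓ : ℓ.Prime) (hℓN : ¬ ℓ ∣ N) (hℓS : ℓ ∉ S),
      θ₀ (heckeAlgebra.T hℓ hℓN hℓS) = ι ((a ℓ : ℤ) : ZMod p) := by
    intro ℓ hℓ hℓN hℓS
    obtain ⟨b, hb, hbm⟩ := hcong ℓ hℓ hℓN hℓS
    have h1 : χ' (heckeAlgebra.T hℓ hℓN hℓS) = b := by
      apply Subtype.ext
      rw [hχ', hb]
      exact prs_eigenchar_T hf S hNS hℓ hℓN hℓS
    show Ideal.Quotient.mk 𝔪 (χ' (heckeAlgebra.T hℓ hℓN hℓS)) = _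
    rw [h1, map_intCast, ← map_intCast (Ideal.Quotient.mk 𝔪)]
    exact (Ideal.Quotient.mk_eq_mk_iff_sub_mem _ _).mpr hbm
  -- the range of `θ₀` lies in the prime field
  have hrange : ∀ t : heckeAlgebra N 2 S, θ₀ t ∈ ι.range := by
    rintro ⟨t, ht⟩
    induction ht using Algebra.adjoin_induction with
    | mem x hx =>
      rcases hx with ⟨ℓ, hℓ, hℓN, hℓS, rfl⟩ | ⟨q, hqN, hq, hqS, rfl⟩
      · exact ⟨_, (hT ℓ hℓ hℓN hℓS).symm⟩
      · exact absurd (hNS q hq hqN) hqS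
    | algebraMap r =>
      refine ⟨(r : ZMod p), ?_⟩
      have : (⟨algebraMap ℤ _ r, Subalgebra.algebraMap_mem _ r⟩ : heckeAlgebra N 2 S) =
          ((r : ℤ) : heckeAlgebra N 2 S) := by
        apply Subtype.ext
        simp [Algebra.algebraMap_eq_smul_one]
      rw [this, map_intCast, map_intCast]
    | add x y hx hy hx' hy' =>
      have : (⟨x + y, Subalgebra.add_mem _ hx hy⟩ : heckeAlgebra N 2 S) = ⟨x, hx⟩ + ⟨y, hy⟩ := rfl
      rw [this, map_add]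
      exact ι.range.add_mem hx' hy'
    | mul x y hx hy hx' hy' =>
      have : (⟨x * y, Subalgebra.mul_mem _ hx hy⟩ : heckeAlgebra N 2 S) = ⟨x, hx⟩ * ⟨y, hy⟩ := rfl
      rw [this, map_mul]
      exact ι.range.mul_mem hx' hy'
  let e : ZMod p ≃+* ι.range := RingEquiv.ofBijective ι.rangeRestrict
    ⟨fun x y h => hι (congrArg Subtype.val h), ι.rangeRestrict_surjective⟩
  let θ : heckeAlgebra N 2 S →+* ZMod p :=
    e.symm.toRingHom.comp (θ₀.codRestrict ι.range hrange)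
  have hθ : ∀ t, ι (θ t) = θ₀ t := by
    intro t
    have h1 : e (θ t) = θ₀.codRestrict ι.range hrange t := e.apply_symm_apply _
    exact congrArg Subtype.val h1
  refine ⟨θ, fun ℓ hℓ hℓN hℓS => hι ?_⟩
  rw [hθ, hT ℓ hℓ hℓN hℓS]

end Fermat.Agent.TW
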