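/-
Project ONE MACHINE (S43), block [F] EASY, cell [F-in] ENTRY, part 2 (helper15).  Prefix `twfe_`.

`twfe_entry : (∀ P : FreyPackage, ¬ P.GaloisRepUnramifiedAt 2) → s43t_Entry_stmt`.

The ONLY hypothesis is the Frey fact [PIVOT-RAM] "`E[p]` is ramified at `2`" (cell `twf_r2_main` of
helper16, file `TW/Easy/RamTwo.lean`).  Everything else is on main:

* `W`, `f`, `𝔪` from `P.ModularRepOfLevel N`;  `S := {p} ∪ {ℓ ∣ Δ(W)}` (the primes of `N` are bad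
  for `W`: `twf_not_good_of_dvd_level`);
* `θ : 𝕋_S(N) → 𝔽_p` = the eigencharacter of `f` modulo `𝔪` (`twfe_exists_theta`);
* `ρ̄ := W_ℚ[p]` (`twfe_rhobar`), with `charpoly ρ̄(Frob_ℓ) = X² − a_ℓ(W) X + ℓ` from the E-side of
  [BLR] (`s44be_main`), absolutely irreducible by `s58ia_seam` + `s44be_det_conj`;
* the local conditions are those of the Frey curve `E[p]` (S05, the hypothesis `IsHard`, and
  [PIVOT-RAM]) transported along the equivariant bijection `E[p] ≃ W_ℚ[p]` (`s44b_torsHom`);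
* `2 ∣ N`: otherwise the copy of `E[p]` in `J₀(N)[p]` (`s44b_blr`) is unramified at `2`
  (`est_unramified`), contradicting [PIVOT-RAM].
-/
import Mathlib
import Fermat.Agent.S43.Top.HardSeams
import Fermat.Agent.TW.Easy.EntryTheta
import Fermat.Agent.TW.Easy.BadPrime
import Fermat.Agent.S44.BLR.Main
import Fermat.Agent.S58.IrrAbs
import Fermat.Agent.S05
import Fermat.Agent.JT3.ES.Torsion
import Fermat.Agent.JT3.Tate.Inputs

set_option autoImplicit false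
set_option linter.unusedSectionVars false
set_option linter.style.haveILetI false
set_option synthInstance.maxHeartbeats 400000
set_option maxHeartbeats 1000000

noncomputable section

namespace Fermat.Agent.TW

open WeierstrassCurve WeierstrassCurve.Affine WeierstrassCurve.Affine.Point
open Fermat.Agent.S43 Fermat.Agent.S44 Fermat.Agent.S58 Fermat.Agent.S13 Fermat.Agent.JT3
open Fermat.Agent.LR ModularCurve Polynomial
open scoped WeierstrassCurve.Affine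

local notation "Qb" => AlgebraicClosure ℚ
local notation "GQ" => (AlgebraicClosure ℚ ≃ₐ[ℚ] AlgebraicClosure ℚ)

section Transfer

variable (E W₂ : WeierstrassCurve ℚ) (C₀ : VariableChange ℚ) (hC : C₀ • E = W₂) (hΔ : E.Δ ≠ 0)
  (p : ℕ)

include C₀ hC hΔ

/-- the change of variables is onto on the `p`-torsion -/
theorem twfe_torsHom_surjective : Function.Surjective (s44b_torsHom E W₂ C₀ hC hΔ p) := by
  intro y
  obtain ⟨Q, hQ⟩ := (lrvc_mapQ_bijective E W₂ C₀ hC hΔ).2 (y : (W₂⁄Qb).Point)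
  have hQmem : Q ∈ Submodule.torsionBy ℤ (E⁄Qb).Point p := by
    have hy := y.2
    rw [Submodule.mem_torsionBy_iff] at hy ⊢
    apply (lrvc_mapQ_bijective E W₂ C₀ hC hΔ).1
    show lrvc_homQ E W₂ C₀ hC hΔ _ = lrvc_homQ E W₂ C₀ hC hΔ 0
    rw [map_zsmul, _root_.map_zero]
    show _ • lrvc_mapQ E W₂ C₀ hC hΔ Q = 0
    rw [hQ, hy]
  exact ⟨⟨Q, hQmem⟩, Subtype.ext hQ⟩

/-- trivial action on `E[p]` ⟹ trivial action on `W₂[p]` -/
theorem twfe_fix_transfer (σ : GQ)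
    (h : ∀ x : Submodule.torsionBy ℤ (E⁄Qb).Point p, σ • x = x)
    (y : Submodule.torsionBy ℤ (W₂⁄Qb).Point p) : σ • y = y := by
  obtain ⟨x, rfl⟩ := twfe_torsHom_surjective E W₂ C₀ hC hΔ p y
  rw [← s44b_torsHom_smul, h]

/-- scalar action on `E[p]` ⟹ scalar action on `W₂[p]` -/
theorem twfe_scalar_transfer (σ : GQ) (c : ℤ)
    (h : ∀ x : Submodule.torsionBy ℤ (E⁄Qb).Point p, σ • x = c • x)
    (y : Submodule.torsionBy ℤ (W₂⁄Qb).Point p) : σ • y = c • y := by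
  obtain ⟨x, rfl⟩ := twfe_torsHom_surjective E W₂ C₀ hC hΔ p y
  rw [← s44b_torsHom_smul, h, map_zsmul]

/-- trivial action on `W₂[p]` ⟹ trivial action on `E[p]` -/
theorem twfe_fix_transfer_back (σ : GQ)
    (h : ∀ y : Submodule.torsionBy ℤ (W₂⁄Qb).Point p, σ • y = y)
    (x : Submodule.torsionBy ℤ (E⁄Qb).Point p) : σ • x = x := by
  apply s44b_torsHom_injective E W₂ C₀ hC hΔ p
  rw [s44b_torsHom_smul, h]

end Transfer

/-- the residual representation `W_ℚ[p]` -/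
def twfe_rhobar (W : WeierstrassCurve ℤ) (hΔ : W.Δ ≠ 0) (p : ℕ) [Fact p.Prime] (hp2 : p ≠ 2) :
    ResidualGaloisRep (ZMod p) :=
  haveI : Finite (Submodule.torsionBy ℤ ((s58_WQ W)⁄Qb).Point p) :=
    ld_finite_torsionBy (s58_WQ W) (s58top_Δ_ne_zero hΔ)
      ((Fact.out : p.Prime).odd_of_ne_two hp2)
  { V := Submodule.torsionBy ℤ ((s58_WQ W)⁄Qb).Point p
    finrank_eq := ld_finrank_torsionBy (K := Qb) (s58_WQ W) (s58top_Δ_ne_zero hΔ) hp2
    ρ := galoisRepModuleEnd (K := Qb) ℚ (s58_WQ W) p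
    factorsThroughFiniteLevel := prs_torsion_level (s58_WQ W) p }

/-- **`2 ∣ N`** from [PIVOT-RAM]: a copy of `E[p]` in `J₀(N)[p]`, `2 ∤ N p`, would be unramified
at `2`. -/
theorem twfe_two_dvd (P : FreyPackage) (hram : ¬ P.GaloisRepUnramifiedAt 2) (N : ℕ) [NeZero N]
    (hirr : GaloisRepIsIrreducible (K := AlgebraicClosure ℚ) ℚ P.freyCurve P.p)
    (hmod : P.ModularRepOfLevel N) : 2 ∣ N := by
  by_contra h2N
  obtain ⟨W', ι, hι⟩ := s44b_blr P N hirr hmod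
  apply hram
  have key : ∀ A : ValuationSubring Qb, A.LiesOverPrime 2 → ∀ σ ∈ A.inertiaSubgroupIn ℚ,
      ∀ x : s44_Tors P, σ • x = x := ?_
  · exact key
  intro A hA σ hσ x
  have h2 : ¬ 2 ∣ N * P.p := by
    intro h
    rcases (Nat.Prime.dvd_mul Nat.prime_two).mp h with h | h
    · exact h2N h
    · have h3 := (Nat.prime_dvd_prime_iff_eq Nat.prime_two P.pp).mp h
      have := P.hp5
      omega
  have hx : P.p • x = 0 := by
    apply Subtype.ext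
    have h := (Submodule.mem_torsionBy_iff _ _).1 x.2
    rw [Submodule.coe_smul_of_tower, Submodule.coe_zero, ← natCast_zsmul]
    exact h
  apply hι.inj
  rw [hι.equiv]
  refine est_unramified N P.p (tji_nodeE N) (tji_S18 N) 2 Nat.prime_two h2 A hA σ hσ (ι x)
    ⟨1, ?_⟩
  rw [pow_one, ← map_nsmul, hx, _root_.map_zero]

/-- **[F-in] ENTRY**, from the Frey fact "`E[p]` is ramified at `2`". -/
theorem twfe_entry (hram : ∀ P : FreyPackage, ¬ P.GaloisRepUnramifiedAt 2) : s43t_Entry_stmt := by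
  classical
  intro P _ N q _ hcond hq hq2 hqp hqN hpN hirr hmod hunr hhard
  have h2N : 2 ∣ N := twfe_two_dvd P (hram P) N hirr hmod
  obtain ⟨f, W, 𝔪, hf, hW, h𝔪, hp𝔪, hcong⟩ := hmod
  have hΔE : P.freyCurve.Δ ≠ 0 := Fermat.Agent.S05.freyCurve_Δ_ne_zero P
  haveI : P.freyCurve.IsElliptic := ⟨isUnit_iff_ne_zero.mpr hΔE⟩
  have hΔ : W.Δ ≠ 0 := lrvc_Δ_ne_zero hW
  have hirrW : W.ModRepIsIrreducible P.p := lrvc_modRepIsIrreducible hW hirr
  have hp2 : P.p ≠ 2 := by have := P.hp5; omega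
  have hN0 : N ≠ 0 := NeZero.ne N
  -- the set `S`
  set S : Finset ℕ := insert P.p W.Δ.natAbs.primeFactors with hS
  have hpS : P.p ∈ S := Finset.mem_insert_self _ _
  have hmemS : ∀ ℓ : ℕ, ℓ.Prime → ¬ W.IsGoodPrimeFor ℓ → ℓ ∈ S := by
    intro ℓ hℓ hbad
    have hd : (ℓ : ℤ) ∣ W.Δ := not_not.mp hbad
    exact Finset.mem_insert_of_mem
      (Nat.mem_primeFactors.mpr ⟨hℓ, Int.natCast_dvd.mp hd, Int.natAbs_ne_zero.mpr hΔ⟩)
  have hgoodS : ∀ ℓ : ℕ, ℓ.Prime → ℓ ∉ S → W.IsGoodPrimeFor ℓ := fun ℓ hℓ hℓS => by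
    by_contra h
    exact hℓS (hmemS ℓ hℓ h)
  have hbadS : ∀ ℓ ∈ S, ℓ ≠ P.p → ¬ W.IsGoodPrimeFor ℓ := by
    intro ℓ hℓS hℓp hgood
    rcases Finset.mem_insert.mp hℓS with h | h
    · exact hℓp h
    · exact hgood (Int.natCast_dvd.mpr (Nat.dvd_of_mem_primeFactors h))
  have hNS : ∀ ℓ : ℕ, ℓ.Prime → ℓ ∣ N → ℓ ∈ S := fun ℓ hℓ hℓN =>
    hmemS ℓ hℓ (twf_not_good_of_dvd_level P hcond hℓ hℓN W hW)
  have hNS' : ∀ ℓ : ℕ, ℓ.Prime → ℓ ∣ N → ℓ ∈ (↑S : Set ℕ) := fun ℓ hℓ hℓN =>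
    Finset.mem_coe.mpr (hNS ℓ hℓ hℓN)
  have hpS' : ∀ ℓ : ℕ, ℓ ∉ (↑S : Set ℕ) → ℓ ≠ P.p := fun ℓ hℓS h =>
    hℓS (by rw [h]; exact Finset.mem_coe.mpr hpS)
  have hgoodS' : ∀ ℓ : ℕ, ℓ.Prime → ℓ ∉ (↑S : Set ℕ) → W.IsGoodPrimeFor ℓ := fun ℓ hℓ hℓS =>
    hgoodS ℓ hℓ (fun h => hℓS (Finset.mem_coe.mpr h))
  -- the eigensystem
  obtain ⟨θ, hθ⟩ := twfe_exists_theta P.pp (↑S : Set ℕ) hNS' hf 𝔪 h𝔪 hp𝔪
    (fun ℓ => W.apOfModel ℓ)
    (fun ℓ hℓ hℓN hℓS => hcong ℓ hℓ (hgoodS' ℓ hℓ hℓS) hℓN (hpS' ℓ hℓS))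
  -- the E-side
  obtain ⟨hfrobV, -⟩ := s44be_main W hΔ P.p hp2 hirrW hf 𝔪 h𝔪 hp𝔪 hcong
  have hdetc := s44be_det_conj W hΔ P.p hp2 N hN0
    (fun ℓ hℓ hg hℓN hℓp A hA τ hτ => (hfrobV ℓ hℓ hg hℓN hℓp A hA τ hτ).2)
  obtain ⟨C, hC⟩ := hW
  refine ⟨W, S, θ, twfe_rhobar W hΔ P.p hp2, ⟨C, hC⟩, ⟨hpS, hbadS, hgoodS⟩, hNS, h2N,
    ?_, ?_, ?_, ?_, ?_, ?_⟩
  · -- `IsFreyEig`
    intro ℓ hℓ hℓN hℓS
    rw [hθ ℓ hℓ hℓN hℓS]
    rfl
  · -- `Compat`
    intro ℓ hℓ hℓN hℓS A hA σ hσ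
    obtain ⟨htr, hdet⟩ := hfrobV ℓ hℓ (hgoodS' ℓ hℓ hℓS) hℓN (hpS' ℓ hℓS) A hA σ hσ
    have h := s58z_charpoly_two (twfe_rhobar W hΔ P.p hp2).finrank_eq
      ((twfe_rhobar W hΔ P.p hp2).ρ σ)
    rw [h, hθ ℓ hℓ hℓN hℓS]
    have e1 : LinearMap.trace (ZMod P.p) (twfe_rhobar W hΔ P.p hp2).V
        ((twfe_rhobar W hΔ P.p hp2).ρ σ) = ((W.apOfModel ℓ : ℤ) : ZMod P.p) := htr
    have e2 : LinearMap.det ((twfe_rhobar W hΔ P.p hp2).ρ σ) = ((ℓ : ℕ) : ZMod P.p) := hdet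
    rw [e1, e2]
  · -- absolutely irreducible
    refine s58ia_seam (ZMod P.p) (twfe_rhobar W hΔ P.p hp2) ?_ ?_
      ⟨complexConjugation, complexConjugation_mul_self, hdetc⟩
    · intro h
      have h' : ((2 : ℕ) : ZMod P.p) = 0 := by exact_mod_cast h
      rw [ZMod.natCast_eq_zero_iff] at h'
      have := Nat.le_of_dvd (by norm_num) h'
      have := P.hp5
      omega
    · intro W' hW'
      exact hirrW.2 W' (fun σ x hx => hW' σ x hx)
  · -- ramified at `2`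
    intro h
    apply hram P
    intro A hA σ hσ x
    refine twfe_fix_transfer_back P.freyCurve (W.map (Int.castRingHom ℚ)) C hC hΔE P.p σ
      (fun y => ?_) x
    have := h A hA σ hσ
    exact LinearMap.congr_fun this y
  · -- unramified at the odd primes of `N`
    intro ℓ hℓ hℓN hℓ2 A hA σ hσ
    have hℓp : ℓ ≠ P.p := fun h => hpN (h ▸ hℓN)
    have hunrℓ := Fermat.Agent.S05.result P hℓ hℓ2 hℓp
    refine LinearMap.ext fun y => ?_
    exact twfe_fix_transfer P.freyCurve (W.map (Int.castRingHom ℚ)) C hC hΔE P.p σ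
      (fun x => hunrℓ A hA σ hσ x) y
  · -- `Frob_q` scalar
    intro A hA σ hσ
    obtain ⟨c, hc⟩ := hhard.2 A hA σ hσ
    refine ⟨((c : ℤ) : ZMod P.p), LinearMap.ext fun y => ?_⟩
    have := twfe_scalar_transfer P.freyCurve (W.map (Int.castRingHom ℚ)) C hC hΔE P.p σ c
      (fun x => hc x) y
    rw [LinearMap.smul_apply, Module.End.one_apply, Int.cast_smul_eq_zsmul]
    exact this

end Fermat.Agent.TW
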