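/-
Project ONE MACHINE (S43), block [F] EASY, cell [F4] = (Z9) of the [F] dossier (helper15).
Prefix `twf_`.

* `twf_det_cyclo`      : on `W_ℚ[p]` (`W` an integral model with `det ρ̄(Frob_ℓ) = ℓ` at the good
                         primes): `det ρ̄(σ) = a` whenever `σ ζ = ζ ^ a` on `μ_p` (Chebotarev);
* `twf_det_frob_model` : `det ρ̄(φ) = q` for a Frobenius element `φ` at ANY prime `q ≠ p`
                         (also the bad ones);
* `twf_torsEquiv`      : the `ZMod p`-linear equivariant isomorphism `E[p] ≃ W₂[p]` of a change of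
                         variables over `ℚ`; `twf_det_conj_model`, `twf_trace_conj_model`;
* `twf_det_frob`       : **[F4]** for the Frey curve (hypotheses of S43): `det ρ̄_E(φ) = q`;
* `twf_frob_scalar_sq` : **(Z9)** if `φ` acts on `E[p]` as the integer scalar `c` then `c² = q` in
                         `ZMod p`;
* `twf_hard_of_scalar` : hence `s43t_IsHard P q` as soon as `φ = ± q` on `E[p]` for ONE Frobenius…
                         (precisely: if EVERY Frobenius at `q` acts as `c = ± q`);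
* `twf_sq_dichotomy`   : linear algebra of the staged Mazur principle: `f² = a²`, `dim = 2`
                         ⟹ `f = a`, `f = -a`, or `det f = -a²`;
* `twf_hard_or_of_frob_sq` : **staged Mazur endgame**: `φ² = q²` on `E[p]` for every Frobenius `φ` at
                         `q` ⟹ `s43t_IsHard P q ∨ p ∣ q + 1`.
-/
import Mathlib
import Fermat.Agent.TW.Easy.Entry

set_option autoImplicit false
set_option linter.unusedSectionVars false
set_option linter.style.haveILetI false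
set_option synthInstance.maxHeartbeats 400000
set_option maxHeartbeats 1000000

noncomputable section

namespace Fermat.Agent.TW

open WeierstrassCurve WeierstrassCurve.Affine WeierstrassCurve.Affine.Point
open Fermat.Agent.S43 Fermat.Agent.S44 Fermat.Agent.S58 Fermat.Agent.S13 Fermat.Agent.JT3
open Fermat.Agent.LR Polynomial
open scoped WeierstrassCurve.Affine

local notation "Qb" => AlgebraicClosure ℚ
local notation "GQ" => (AlgebraicClosure ℚ ≃ₐ[ℚ] AlgebraicClosure ℚ)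

/-- **`det ρ̄ = ` the mod `p` cyclotomic character** on `W_ℚ[p]`, from `det ρ̄(Frob_ℓ) = ℓ` at the
good primes and Chebotarev. -/
theorem twf_det_cyclo (W : WeierstrassCurve ℤ) (hΔ : W.Δ ≠ 0) (p : ℕ) [Fact p.Prime]
    (hp2 : p ≠ 2) (N : ℕ) (hN : N ≠ 0)
    (hfrob : ∀ ℓ : ℕ, ℓ.Prime → W.IsGoodPrimeFor ℓ → ¬ ℓ ∣ N → ℓ ≠ p →
      ∀ A : ValuationSubring Qb, A.LiesOverPrime ℓ → ∀ τ : GQ, A.IsFrobeniusAt τ ℓ →
        LinearMap.det (galoisRepModuleEnd (K := Qb) ℚ (s58_WQ W) p τ) = ((ℓ : ℕ) : ZMod p))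
    (σ : GQ) (a : ℕ) (ha : ∀ ζ : Qb, ζ ^ p = 1 → σ ζ = ζ ^ a) :
    LinearMap.det (galoisRepModuleEnd (K := Qb) ℚ (s58_WQ W) p σ) = ((a : ℕ) : ZMod p) := by
  have hpp : p.Prime := Fact.out
  have hodd : Odd p := hpp.odd_of_ne_two hp2
  have hΔ' := s58top_Δ_ne_zero hΔ
  haveI : Finite (Submodule.torsionBy ℤ ((s58_WQ W)⁄Qb).Point p) :=
    ld_finite_torsionBy (s58_WQ W) hΔ' hodd
  obtain ⟨L2, hL2, h2⟩ := prs_torsion_level (s58_WQ W) p
  obtain ⟨ζ, hζ⟩ := s44be_exists_primitiveRoot p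
  haveI := hL2
  haveI : Algebra.IsAlgebraic ℚ Qb := AlgebraicClosure.isAlgebraic ℚ
  haveI : FiniteDimensional ℚ ↥(IntermediateField.adjoin ℚ {ζ}) :=
    IntermediateField.adjoin.finiteDimensional (Algebra.IsIntegral.isIntegral ζ)
  have hL : FiniteDimensional ℚ ↥(L2 ⊔ IntermediateField.adjoin ℚ {ζ}) :=
    IntermediateField.finiteDimensional_sup _ _
  obtain ⟨ℓ, A, τ, hℓ, hℓS, hA, hτ, hτc⟩ :=
    Fermat.Agent.S56.s56c_exists (L2 ⊔ IntermediateField.adjoin ℚ {ζ}) hL (s44be_bad W p N) σ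
  obtain ⟨hℓp, hℓN, hg⟩ := s44be_not_mem_bad hΔ hN hℓ hℓS
  have e2 : galoisRepModuleEnd (K := Qb) ℚ (s58_WQ W) p τ =
      galoisRepModuleEnd (K := Qb) ℚ (s58_WQ W) p σ :=
    s44be_eq_of_agree _ L2 h2 σ τ fun x hx =>
      hτc x ((le_sup_left : L2 ≤ L2 ⊔ IntermediateField.adjoin ℚ {ζ}) hx)
  have hζL : ζ ∈ L2 ⊔ IntermediateField.adjoin ℚ {ζ} :=
    (le_sup_right : IntermediateField.adjoin ℚ {ζ} ≤ L2 ⊔ IntermediateField.adjoin ℚ {ζ})
      (IntermediateField.mem_adjoin_simple_self ℚ ζ)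
  have hζp : ζ ^ p = 1 := hζ.pow_eq_one
  have h3 : τ ζ = ζ ^ ℓ :=
    cya_frob_rootsOfUnity p hℓ hℓp A hA τ hτ 1 (by rw [pow_one]; exact hζp)
  have h4 : ζ ^ ℓ = ζ ^ a := by rw [← h3, hτc ζ hζL, ha ζ hζp]
  have h5 : ℓ ≡ a [MOD p] := by
    have hfin : IsOfFinOrder ζ := isOfFinOrder_iff_pow_eq_one.mpr ⟨p, hpp.pos, hζp⟩
    have := hfin.pow_eq_pow_iff_modEq.mp h4
    rwa [← hζ.eq_orderOf] at this
  rw [← e2, hfrob ℓ hℓ hg hℓN hℓp A hA τ hτ]
  exact (ZMod.natCast_eq_natCast_iff _ _ _).mpr h5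

/-- `det ρ̄(φ) = q` on `W_ℚ[p]` for a Frobenius element `φ` at ANY prime `q ≠ p`. -/
theorem twf_det_frob_model (W : WeierstrassCurve ℤ) (hΔ : W.Δ ≠ 0) (p : ℕ) [Fact p.Prime]
    (hp2 : p ≠ 2) (N : ℕ) (hN : N ≠ 0)
    (hfrob : ∀ ℓ : ℕ, ℓ.Prime → W.IsGoodPrimeFor ℓ → ¬ ℓ ∣ N → ℓ ≠ p →
      ∀ A : ValuationSubring Qb, A.LiesOverPrime ℓ → ∀ τ : GQ, A.IsFrobeniusAt τ ℓ →
        LinearMap.det (galoisRepModuleEnd (K := Qb) ℚ (s58_WQ W) p τ) = ((ℓ : ℕ) : ZMod p))
    {q : ℕ} (hq : q.Prime) (hqp : q ≠ p) (A : ValuationSubring Qb) (hA : A.LiesOverPrime q)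
    (φ : GQ) (hφ : A.IsFrobeniusAt φ q) :
    LinearMap.det (galoisRepModuleEnd (K := Qb) ℚ (s58_WQ W) p φ) = ((q : ℕ) : ZMod p) :=
  twf_det_cyclo W hΔ p hp2 N hN hfrob φ q fun ζ hζ =>
    cya_frob_rootsOfUnity p hq hqp A hA φ hφ 1 (by rw [pow_one]; exact hζ)

section Equiv

variable (E W₂ : WeierstrassCurve ℚ) (C₀ : VariableChange ℚ) (hC : C₀ • E = W₂) (hΔ : E.Δ ≠ 0)
  (p : ℕ) [Fact p.Prime]

/-- the `ZMod p`-linear isomorphism `E[p] ≃ W₂[p]` of a change of variables over `ℚ` -/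
def twf_torsEquiv :
    Submodule.torsionBy ℤ (E⁄Qb).Point p ≃ₗ[ZMod p] Submodule.torsionBy ℤ (W₂⁄Qb).Point p :=
  LinearEquiv.ofBijective ((s44b_torsHom E W₂ C₀ hC hΔ p).toZModLinearMap p)
    ⟨s44b_torsHom_injective E W₂ C₀ hC hΔ p, twfe_torsHom_surjective E W₂ C₀ hC hΔ p⟩

theorem twf_torsEquiv_apply (x : Submodule.torsionBy ℤ (E⁄Qb).Point p) :
    twf_torsEquiv E W₂ C₀ hC hΔ p x = s44b_torsHom E W₂ C₀ hC hΔ p x := rfl

theorem twf_torsEquiv_smul (σ : GQ) (x : Submodule.torsionBy ℤ (E⁄Qb).Point p) :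
    twf_torsEquiv E W₂ C₀ hC hΔ p (σ • x) = σ • twf_torsEquiv E W₂ C₀ hC hΔ p x :=
  s44b_torsHom_smul E W₂ C₀ hC hΔ p σ x

/-- `ρ̄_{W₂}(σ) = e ∘ ρ̄_E(σ) ∘ e⁻¹` -/
theorem twf_rho_conj (σ : GQ) :
    galoisRepModuleEnd (K := Qb) ℚ W₂ p σ =
      ((twf_torsEquiv E W₂ C₀ hC hΔ p : _ →ₗ[ZMod p] _) ∘ₗ
        galoisRepModuleEnd (K := Qb) ℚ E p σ) ∘ₗ
          ((twf_torsEquiv E W₂ C₀ hC hΔ p).symm : _ →ₗ[ZMod p] _) := by
  refine LinearMap.ext fun y => ?_
  show σ • y = twf_torsEquiv E W₂ C₀ hC hΔ p (σ • (twf_torsEquiv E W₂ C₀ hC hΔ p).symm y)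
  rw [twf_torsEquiv_smul, LinearEquiv.apply_symm_apply]

include C₀ hC hΔ in
theorem twf_det_conj_model (σ : GQ) :
    LinearMap.det (galoisRepModuleEnd (K := Qb) ℚ W₂ p σ) =
      LinearMap.det (galoisRepModuleEnd (K := Qb) ℚ E p σ) := by
  rw [twf_rho_conj E W₂ C₀ hC hΔ p σ]
  exact LinearMap.det_conj (galoisRepModuleEnd (K := Qb) ℚ E p σ)
    (twf_torsEquiv E W₂ C₀ hC hΔ p)

include C₀ hC hΔ in
theorem twf_trace_conj_model (σ : GQ) :
    LinearMap.trace (ZMod p) _ (galoisRepModuleEnd (K := Qb) ℚ W₂ p σ) =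
      LinearMap.trace (ZMod p) _ (galoisRepModuleEnd (K := Qb) ℚ E p σ) := by
  rw [twf_rho_conj E W₂ C₀ hC hΔ p σ]
  exact LinearMap.trace_conj' (galoisRepModuleEnd (K := Qb) ℚ E p σ)
    (twf_torsEquiv E W₂ C₀ hC hΔ p)

end Equiv

/-- above every prime there is a valuation subring of `ℚ̄` (copy of `mzt_exists_place`) -/
theorem twf_exists_place (ℓ : ℕ) (hℓ : ℓ.Prime) :
    ∃ A : ValuationSubring Qb, A.LiesOverPrime ℓ := by
  let Z : Subring Qb := (algebraMap ℤ Qb).range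
  let l : Z := ⟨(ℓ : Qb), ⟨(ℓ : ℤ), by simp⟩⟩
  have hne : Ideal.span ({l} : Set Z) ≠ ⊤ := by
    intro h
    rw [Ideal.span_singleton_eq_top] at h
    obtain ⟨⟨b, hb⟩, hbl⟩ := h.exists_right_inv
    obtain ⟨n, rfl⟩ := hb
    have h1 : ((ℓ : ℤ) * n : ℤ) = 1 := by
      have h2 : (algebraMap ℤ Qb) ((ℓ : ℤ) * n) = (algebraMap ℤ Qb) 1 := by
        rw [map_mul, map_one]
        have := congrArg Subtype.val hbl
        simpa [l] using this
      exact (algebraMap ℤ Qb).injective_int h2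
    have h3 : (ℓ : ℤ) ∣ 1 := ⟨n, h1.symm⟩
    have h4 : ℓ ∣ 1 := by exact_mod_cast h3
    exact hℓ.one_lt.ne' (Nat.dvd_one.1 h4)
  obtain ⟨B, -, hB⟩ := Ideal.image_subset_nonunits_valuationSubring (Ideal.span ({l} : Set Z)) hne
  exact ⟨B, hB ⟨l, Ideal.subset_span rfl, rfl⟩⟩

/-- **[F4]** `det ρ̄_E(φ) = q` on `E[p]`, `E` the Frey curve, for every Frobenius element `φ` at
every prime `q ≠ p` (under the hypotheses of S43: `E[p]` irreducible and modular of SOME level). -/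
theorem twf_det_frob (P : FreyPackage) (N : ℕ) [NeZero N]
    (hirr : GaloisRepIsIrreducible (K := AlgebraicClosure ℚ) ℚ P.freyCurve P.p)
    (hmod : P.ModularRepOfLevel N) {q : ℕ} (hq : q.Prime) (hqp : q ≠ P.p)
    (A : ValuationSubring Qb) (hA : A.LiesOverPrime q) (φ : GQ) (hφ : A.IsFrobeniusAt φ q) :
    LinearMap.det (galoisRepModuleEnd (K := Qb) ℚ P.freyCurve P.p φ) = ((q : ℕ) : ZMod P.p) := by
  haveI : Fact P.p.Prime := ⟨P.pp⟩
  obtain ⟨f, W, 𝔪, hf, hW, h𝔪, hp𝔪, hcong⟩ := hmod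
  have hΔE : P.freyCurve.Δ ≠ 0 := Fermat.Agent.S05.freyCurve_Δ_ne_zero P
  haveI : P.freyCurve.IsElliptic := ⟨isUnit_iff_ne_zero.mpr hΔE⟩
  have hΔ : W.Δ ≠ 0 := lrvc_Δ_ne_zero hW
  have hirrW : W.ModRepIsIrreducible P.p := lrvc_modRepIsIrreducible hW hirr
  have hp2 : P.p ≠ 2 := by have := P.hp5; omega
  obtain ⟨hfrobV, -⟩ := s44be_main W hΔ P.p hp2 hirrW hf 𝔪 h𝔪 hp𝔪 hcong
  obtain ⟨C, hC⟩ := hW
  rw [← twf_det_conj_model P.freyCurve (W.map (Int.castRingHom ℚ)) C hC hΔE P.p φ]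
  exact twf_det_frob_model W hΔ P.p hp2 N (NeZero.ne N)
    (fun ℓ hℓ hg hℓN hℓp A hA τ hτ => (hfrobV ℓ hℓ hg hℓN hℓp A hA τ hτ).2) hq hqp A hA φ hφ

/-- **(Z9)** if a Frobenius element at `q ≠ p` acts on `E[p]` as the integer scalar `c`, then
`c² = q` in `ZMod p`. -/
theorem twf_frob_scalar_sq (P : FreyPackage) (N : ℕ) [NeZero N]
    (hirr : GaloisRepIsIrreducible (K := AlgebraicClosure ℚ) ℚ P.freyCurve P.p)
    (hmod : P.ModularRepOfLevel N) {q : ℕ} (hq : q.Prime) (hqp : q ≠ P.p)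
    (A : ValuationSubring Qb) (hA : A.LiesOverPrime q) (φ : GQ) (hφ : A.IsFrobeniusAt φ q)
    (c : ℤ) (hc : ∀ x : s43t_Tors P, φ • x = c • x) :
    ((c : ℤ) : ZMod P.p) ^ 2 = ((q : ℕ) : ZMod P.p) := by
  haveI : Fact P.p.Prime := ⟨P.pp⟩
  have hdet := twf_det_frob P N hirr hmod hq hqp A hA φ hφ
  have hΔE : P.freyCurve.Δ ≠ 0 := Fermat.Agent.S05.freyCurve_Δ_ne_zero P
  have hp2 : P.p ≠ 2 := by have := P.hp5; omega
  have hfr : Module.finrank (ZMod P.p)
      (Submodule.torsionBy ℤ ((P.freyCurve)⁄Qb).Point P.p) = 2 :=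
    ld_finrank_torsionBy (K := Qb) P.freyCurve (lrvc_baseChange_Δ P.freyCurve hΔE) hp2
  have hsc : galoisRepModuleEnd (K := Qb) ℚ P.freyCurve P.p φ =
      ((c : ℤ) : ZMod P.p) • (1 : Module.End (ZMod P.p) _) := by
    refine LinearMap.ext fun x => ?_
    rw [LinearMap.smul_apply, Module.End.one_apply, Int.cast_smul_eq_zsmul]
    exact hc x
  rw [hsc, LinearMap.det_smul, hfr, map_one, mul_one] at hdet
  exact hdet

/-- the scalar case of Mazur's principle: if every Frobenius element at `q` acts on `E[p]` as an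
integer scalar `c` with `c² ≡ q²  mod p` (e.g. `c = ± q`), then `q` is hard. -/
theorem twf_hard_of_scalar (P : FreyPackage) (N : ℕ) [NeZero N]
    (hirr : GaloisRepIsIrreducible (K := AlgebraicClosure ℚ) ℚ P.freyCurve P.p)
    (hmod : P.ModularRepOfLevel N) {q : ℕ} (hq : q.Prime) (hqp : q ≠ P.p)
    (h : ∀ A : ValuationSubring Qb, A.LiesOverPrime q → ∀ φ : GQ, A.IsFrobeniusAt φ q →
      ∃ c : ℤ, ((c : ℤ) : ZMod P.p) ^ 2 = ((q : ℕ) : ZMod P.p) ^ 2 ∧
        ∀ x : s43t_Tors P, φ • x = c • x) :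
    s43t_IsHard P q := by
  haveI : Fact P.p.Prime := ⟨P.pp⟩
  have hscal : s43t_FrobScalar P q := fun A hA φ hφ => by
    obtain ⟨c, -, hc⟩ := h A hA φ hφ
    exact ⟨c, hc⟩
  refine ⟨?_, hscal⟩
  -- a Frobenius element exists
  obtain ⟨A, hA⟩ := twf_exists_place q hq
  obtain ⟨φ, hφ⟩ := fex_exists_isFrobeniusAt hq A hA
  obtain ⟨c, hc2, hc⟩ := h A hA φ hφ
  have h1 := twf_frob_scalar_sq P N hirr hmod hq hqp A hA φ hφ c hc
  have hq0 : ((q : ℕ) : ZMod P.p) ≠ 0 := by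
    intro h0
    rw [ZMod.natCast_eq_zero_iff] at h0
    exact hqp ((Nat.prime_dvd_prime_iff_eq P.pp hq).mp h0).symm
  have h2 : ((q : ℕ) : ZMod P.p) = 1 := by
    have : ((q : ℕ) : ZMod P.p) * ((q : ℕ) : ZMod P.p) = ((q : ℕ) : ZMod P.p) * 1 := by
      rw [mul_one, ← pow_two, ← hc2, h1]
    exact mul_left_cancel₀ hq0 this
  have h3 : ((q : ℕ) : ZMod P.p) = ((1 : ℕ) : ZMod P.p) := by rw [h2, Nat.cast_one]
  have h4 := (ZMod.natCast_eq_natCast_iff' _ _ _).mp h3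
  rw [h4]
  exact Nat.mod_eq_of_lt P.pp.one_lt

/-- linear algebra of the staged Mazur principle: in dimension two, `f² = a²` forces `f = a`,
`f = -a`, or `det f = -a²`. -/
theorem twf_sq_dichotomy {k V : Type*} [Field k] [AddCommGroup V] [Module k V]
    (hV : Module.finrank k V = 2) (f : Module.End k V) (a : k)
    (hf : f * f = (a ^ 2) • (1 : Module.End k V)) :
    f = a • (1 : Module.End k V) ∨ f = (-a) • (1 : Module.End k V) ∨ LinearMap.det f = -a ^ 2 := by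
  haveI : Module.Finite k V := Module.finite_of_finrank_eq_succ hV
  -- Cayley–Hamilton
  have hCH : f * f - (LinearMap.trace k V f) • f + (LinearMap.det f) • (1 : Module.End k V) = 0 := by
    have h := LinearMap.aeval_self_charpoly f
    rw [s58z_charpoly_two hV f] at h
    simpa [pow_two, Algebra.algebraMap_eq_smul_one, smul_mul_assoc] using h
  rw [hf] at hCH
  by_cases ht : LinearMap.trace k V f = 0
  · -- trace zero: `det = -a²`
    right; right
    rw [ht, zero_smul, sub_zero, ← add_smul] at hCH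
    have h1 : (a ^ 2 + LinearMap.det f) = 0 := by
      by_contra hne
      have : (1 : Module.End k V) = 0 := by
        have := congrArg (fun g => (a ^ 2 + LinearMap.det f)⁻¹ • g) hCH
        simpa [smul_smul, inv_mul_cancel₀ hne] using this
      have hnt : Nontrivial V := Module.nontrivial_of_finrank_pos (R := k) (by rw [hV]; norm_num)
      exact one_ne_zero this
    linear_combination h1
  · -- `f` is the scalar `s := (a² + det f) / tr f`
    set t := LinearMap.trace k V f with htdef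
    set s : k := (a ^ 2 + LinearMap.det f) / t with hs
    have hfs : f = s • (1 : Module.End k V) := by
      have h1 : t • f = (a ^ 2 + LinearMap.det f) • (1 : Module.End k V) := by
        rw [add_smul]
        have := hCH
        rw [sub_add_eq_add_sub, sub_eq_zero] at this
        exact this.symm
      have h2 := congrArg (fun g => t⁻¹ • g) h1
      simp only [smul_smul, inv_mul_cancel₀ ht, one_smul] at h2
      rw [h2, hs, div_eq_inv_mul]
    have hss : s ^ 2 = a ^ 2 := by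
      have h1 : (s ^ 2) • (1 : Module.End k V) = (a ^ 2) • (1 : Module.End k V) := by
        rw [← hf, hfs, smul_mul_smul_comm, mul_one, pow_two]
      have hnt : Nontrivial V := Module.nontrivial_of_finrank_pos (R := k) (by rw [hV]; norm_num)
      obtain ⟨v, hv⟩ := exists_ne (0 : V)
      have h2 := congrArg (fun g : Module.End k V => g v) h1
      simp only [LinearMap.smul_apply, Module.End.one_apply] at h2
      exact smul_left_injective k hv h2
    rcases sq_eq_sq_iff_eq_or_eq_neg.mp hss with h | h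
    · left; rw [hfs, h]
    · right; left; rw [hfs, h]

/-- **the staged Mazur principle, endgame**: if `φ² = q²` on `E[p]` for every Frobenius element
`φ` at `q ≠ p`, then `q` is hard or `q ≡ -1 mod p`. -/
theorem twf_hard_or_of_frob_sq (P : FreyPackage) (N : ℕ) [NeZero N]
    (hirr : GaloisRepIsIrreducible (K := AlgebraicClosure ℚ) ℚ P.freyCurve P.p)
    (hmod : P.ModularRepOfLevel N) {q : ℕ} (hq : q.Prime) (hqp : q ≠ P.p)
    (h : ∀ A : ValuationSubring Qb, A.LiesOverPrime q → ∀ φ : GQ, A.IsFrobeniusAt φ q →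
      ∀ x : s43t_Tors P, φ • φ • x = ((q : ℤ) ^ 2) • x) :
    s43t_IsHard P q ∨ P.p ∣ q + 1 := by
  haveI : Fact P.p.Prime := ⟨P.pp⟩
  by_cases hm : P.p ∣ q + 1
  · exact Or.inr hm
  left
  have hΔE : P.freyCurve.Δ ≠ 0 := Fermat.Agent.S05.freyCurve_Δ_ne_zero P
  have hp2 : P.p ≠ 2 := by have := P.hp5; omega
  have hfr : Module.finrank (ZMod P.p)
      (Submodule.torsionBy ℤ ((P.freyCurve)⁄Qb).Point P.p) = 2 :=
    ld_finrank_torsionBy (K := Qb) P.freyCurve (lrvc_baseChange_Δ P.freyCurve hΔE) hp2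
  have hq0 : ((q : ℕ) : ZMod P.p) ≠ 0 := by
    intro h0
    rw [ZMod.natCast_eq_zero_iff] at h0
    exact hqp ((Nat.prime_dvd_prime_iff_eq P.pp hq).mp h0).symm
  refine twf_hard_of_scalar P N hirr hmod hq hqp fun A hA φ hφ => ?_
  have hff : galoisRepModuleEnd (K := Qb) ℚ P.freyCurve P.p φ *
      galoisRepModuleEnd (K := Qb) ℚ P.freyCurve P.p φ =
        (((q : ℕ) : ZMod P.p) ^ 2) • (1 : Module.End (ZMod P.p) _) := by
    refine LinearMap.ext fun x => ?_
    have e : ((q : ℕ) : ZMod P.p) ^ 2 = (((q : ℤ) ^ 2 : ℤ) : ZMod P.p) := by push_cast; rfl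
    rw [LinearMap.smul_apply, Module.End.one_apply, e, Int.cast_smul_eq_zsmul]
    exact h A hA φ hφ x
  rcases twf_sq_dichotomy hfr _ _ hff with h1 | h1 | h1
  · refine ⟨(q : ℤ), by push_cast; rfl, fun x => ?_⟩
    have := LinearMap.congr_fun h1 x
    rw [LinearMap.smul_apply, Module.End.one_apply] at this
    rw [← Int.cast_smul_eq_zsmul (ZMod P.p)]
    push_cast
    exact this
  · refine ⟨-(q : ℤ), by push_cast; ring, fun x => ?_⟩
    have := LinearMap.congr_fun h1 x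
    rw [LinearMap.smul_apply, Module.End.one_apply] at this
    rw [← Int.cast_smul_eq_zsmul (ZMod P.p)]
    push_cast
    exact this
  · exfalso
    rw [twf_det_frob P N hirr hmod hq hqp A hA φ hφ] at h1
    have h2 : ((q : ℕ) : ZMod P.p) * (((q + 1 : ℕ)) : ZMod P.p) = 0 := by
      push_cast
      linear_combination h1
    rcases mul_eq_zero.mp h2 with h3 | h3
    · exact hq0 h3
    · exact hm ((ZMod.natCast_eq_zero_iff _ _).mp h3)

end Fermat.Agent.TW
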