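/-
Project ONE MACHINE, block [F] EASY (architect helper1), cell F2: THE TWO-PRIME FORM OF S44's OLD-k.

`A` a valuation subring of `ℚ̄` over a prime `q ∤ M`, `k_A` its residue field, `p` ANOTHER prime (the
torsion prime; `p = q` is allowed and gives back S44's statements).

* `twf_dens_of_div`, `twf_dens` : (DENS) for the pair (residue characteristic `q`, torsion prime `p`):
  same proof as `s44kd_dens_of_div` (S44/OldK/Dens.lean), which never uses that the two primes agree;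
* **`twf_level_of_delta`** : a nonzero class `δ ∈ Pic⁰(F̃_M / k_A)[p]` with `T̃_ℓ δ = a_ℓ(W) δ` for the
  good primes `ℓ ∤ M`, `ℓ ≠ p`, `ℓ ≠ q` (in particular if `q` is a bad prime of `W`) gives
  `P.ModularRepOfLevel M`.
Prefix `twf_`.
-/
import Mathlib
import Fermat.Agent.S44.OldK.LevelM

set_option autoImplicit false
set_option linter.unusedSectionVars false
set_option linter.style.haveILetI false
set_option synthInstance.maxHeartbeats 400000
set_option maxHeartbeats 1000000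

noncomputable section

namespace Fermat.Agent.TW

open ModularCurve AlgebraicCurve
open Fermat.Agent.JT3 Fermat.Agent.S24 Fermat.Agent.S35 Fermat.Agent.S44 Fermat.Agent.MZ

local notation "Qb" => AlgebraicClosure ℚ
local notation "GQ" => (AlgebraicClosure ℚ ≃ₐ[ℚ] AlgebraicClosure ℚ)

variable (M q p : ℕ) [NeZero M]

/-- **(DENS)** for one infinitely `p`-divisible class `y`, residue characteristic `q`. -/
theorem twf_dens_of_div (hq : q.Prime) (hp : p.Prime) (hqM : ¬ q ∣ M) (A : ValuationSubring Qb)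
    (hA : A.LiesOverPrime q)
    (Qe : JZero M →+ JZero M)
    (Qr : JZeroC (IsLocalRing.ResidueField A) M →+ JZeroC (IsLocalRing.ResidueField A) M)
    (ha : ∀ (σ : GQ) (x : JZero M), Qe (σ • x) = σ • Qe x)
    (hb : ∀ x : JZero M, reductionModL A M (Qe x) = Qr (reductionModL A M x))
    (hc : ∀ x : JZero M, (∃ n : ℕ, p ^ n • x = 0) → Qe x = 0)
    (y : JZero M) (hdiv : ∀ b : ℕ, ∃ w : JZero M, p ^ b • w = y)
    (hy : p • reductionModL A M y = 0) : Qr (reductionModL A M y) = 0 := by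
  haveI : Fact q.Prime := ⟨hq⟩
  -- a number field fixing `y`
  obtain ⟨L, hL, hLy⟩ := egs_exists_fixing M y
  haveI := hL
  -- a Frobenius element and a power of it fixing `L`
  obtain ⟨σ, hσ⟩ := fex_exists_isFrobeniusAt hq A hA
  obtain ⟨m, hm1, hm⟩ := s44kd_exists_pow_fix L σ
  set g : A.decompositionSubgroup ℚ := ⟨σ, hσ.mem_decompositionSubgroup⟩ ^ m with hg
  have hgτ : ((g : A.decompositionSubgroup ℚ) : GQ) = σ ^ m := by
    rw [hg]; rfl
  have hτy : (σ ^ m) • y = y := hLy (σ ^ m) hm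
  -- the reduction data
  have h : ReductionInputsModL A M := rpw_nodeE M q hq hqM A hA
  haveI := jcr_charP A hA
  haveI := jcr_isAlgClosed A
  -- the exponent of the Frobenius-fixed classes
  have hφ : ∀ c : IsLocalRing.ResidueField A, egr_phi g c = c ^ (q ^ m) :=
    fun c => s44kd_frob_pow σ hσ m c
  have h2 : 2 ≤ q ^ m := by
    calc 2 ≤ q := hq.two_le
      _ = q ^ 1 := (pow_one q).symm
      _ ≤ q ^ m := Nat.pow_le_pow_right hq.pos hm1
  obtain ⟨e, he1, he⟩ := s35b_exists_exponent (jcr_isSepGen (k := IsLocalRing.ResidueField A) M hqM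
    (jcr_rho A hA)) (ca_aut (IsLocalRing.ResidueField A) M (egr_phi g)) (q ^ m) h2
    (s35b_ca_baseAut M (egr_phi g) hφ) (s35b_ca_smul_j M (egr_phi g))
  refine s44kd_dens_abs p hp (reductionModL A M) Qe Qr ha hb hc y hdiv (σ ^ m) hτy e he1 ?_ hy
  intro u hu
  apply he
  have h3 := egr_red_smul h (est_riemann_fbar M) g u
  rw [hgτ, hu] at h3
  exact h3.symm

/-- **(DENS)**, in the shape consumed by `s44c_level_of_dens`. -/
theorem twf_dens (hq : q.Prime) (hp : p.Prime) (hqM : ¬ q ∣ M) (A : ValuationSubring Qb)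
    (hA : A.LiesOverPrime q) :
    ∀ (Qe : JZero M →+ JZero M)
      (Qr : JZeroC (IsLocalRing.ResidueField A) M →+ JZeroC (IsLocalRing.ResidueField A) M),
      (∀ (σ : GQ) (x : JZero M), Qe (σ • x) = σ • Qe x) →
      (∀ x : JZero M, reductionModL A M (Qe x) = Qr (reductionModL A M x)) →
      (∀ x : JZero M, (∃ n : ℕ, p ^ n • x = 0) → Qe x = 0) →
      ∀ y : JZero M, p • reductionModL A M y = 0 → Qr (reductionModL A M y) = 0 :=
  fun Qe Qr ha hb hc y hy =>
    twf_dens_of_div M q p hq hp hqM A hA Qe Qr ha hb hc y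
      (fun b => s44kd_div_pow M hp.ne_zero b y) hy

/-- **[F2], the two-prime OLD-k**: `A` over `q ∤ M`, `q` a bad prime of the integral model `W` of the
Frey curve; a nonzero `T̃_ℓ`-eigenclass of `Pic⁰(F̃_M / k_A)[p]` with the eigenvalues `a_ℓ(W)` gives
residual modularity of level `M`. -/
theorem twf_level_of_delta (P : FreyPackage) (M q : ℕ) [NeZero M] (hq : q.Prime) (hqM : ¬ q ∣ M)
    (W : WeierstrassCurve ℤ) (hW : W.IsIntegralModelOf P.freyCurve)
    (hbad : ¬ W.IsGoodPrimeFor q)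
    (A : ValuationSubring Qb) (hA : A.LiesOverPrime q)
    (δ : JZeroC (IsLocalRing.ResidueField A) M) (hδ0 : δ ≠ 0) (hpδ : P.p • δ = 0)
    (hδ : ∀ ℓ : Nat.Primes, W.IsGoodPrimeFor ℓ → ¬ (ℓ : ℕ) ∣ M → (ℓ : ℕ) ≠ P.p →
      s44k2_TCp (IsLocalRing.ResidueField A) M ℓ δ = (W.apOfModel ℓ) • δ) :
    P.ModularRepOfLevel M := by
  obtain ⟨y, hy⟩ := s44k2_red_surj M q hq hqM A hA δ
  refine s44c_level_of_dens P M W hW (reductionModL A M)
    (fun ℓ => s44k2_TCp (IsLocalRing.ResidueField A) M ℓ) ?_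
    (twf_dens M q P.p hq P.pp hqM A hA) δ hδ0 hpδ hδ y hy
  intro ℓ hgood hℓM _ z
  have hℓq : (ℓ : ℕ) ≠ q := by
    rintro h
    exact hbad (h ▸ hgood)
  exact s44k2_red_heckep M q hq hqM A hA ℓ hℓM hℓq z

/-- the same with the class packaged existentially -/
theorem twf_level_of_delta' (P : FreyPackage) (M q : ℕ) [NeZero M] (hq : q.Prime) (hqM : ¬ q ∣ M)
    (W : WeierstrassCurve ℤ) (hW : W.IsIntegralModelOf P.freyCurve)
    (hbad : ¬ W.IsGoodPrimeFor q)
    (A : ValuationSubring Qb) (hA : A.LiesOverPrime q)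
    (h : ∃ δ : JZeroC (IsLocalRing.ResidueField A) M, δ ≠ 0 ∧ P.p • δ = 0 ∧
      ∀ ℓ : Nat.Primes, W.IsGoodPrimeFor ℓ → ¬ (ℓ : ℕ) ∣ M → (ℓ : ℕ) ≠ P.p →
        s44k2_TCp (IsLocalRing.ResidueField A) M ℓ δ = (W.apOfModel ℓ) • δ) :
    P.ModularRepOfLevel M := by
  obtain ⟨δ, hδ0, hpδ, hδ⟩ := h
  exact twf_level_of_delta P M q hq hqM W hW hbad A hA δ hδ0 hpδ hδ

end Fermat.Agent.TW
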