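/-
Project ONE MACHINE (S43), block [F] EASY (architect helper1): THE GEOMETRIC SEAMS OF MAZUR'S PRINCIPLE
AND THE WIRING `cells ⟹ s43t_Mazur_stmt` (dossier #4673; template: `s44bg_bigInf`, S44/Big/Seams.lean).

`A` a valuation subring of `ℚ̄` over the odd prime `q`, `q ∤ M`, level `M q`, exponent `m`
(`m = P.p` in the wiring).  `ν = twfr_nu`, `δ = twfr_delta` are helper20's (TW/Easy/Res/*).

Cells (named `Prop`s; each has ONE owner):
* `twf_CompCells A M hqM m S k B`  **(Z3)+(Z4)**: weights `k`, operator `B`, finite exceptional set `S`: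
    `k_unit`, `mono` [MONO-tame: `z ∈ J[m]` fixed by `I_A` ⟹ `k_i ν_i(z) = c`],
    `heckeRes` [`ν (T_ℓ z) = B_ℓ (ν z)`], `B_eis` [`B_ℓ (1/k) = (ℓ+1)(1/k)`];
* `twf_ResHecke_stmt A M hqM m`    **(Z6)**: `δ (T_ℓ z) = T̃_ℓ (δ z)` on `J[m] ∩ ker ν`;
* `twf_Toric_stmt A M hqM m`       **(Z7)**: `z ∈ J[m]` fixed by `I_A`, `W_q z = ± z`, `ν z = 0`, `δ z = 0`
                                    ⟹ `φ φ z = q² z`;
* `twf_ToricW_stmt A M hqM m s`    **(Z8)**: the same ⟹ `φ z = (s q) W_q z` (`s = ± 1` a global sign).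

Wiring (all proved here):
* `twf_nu_zero`        : (Z3)+(Z4)+[EIS] ⟹ `ν (ι y) = 0` for a copy `ι` of an unramified `E[p]`;
* `twf_mazur_staged`   : (Z3)+(Z4)+(Z6)+(Z7) ⟹ level `M`, or `q` hard, or `p ∣ q + 1`;
* `twf_mazur_full`     : (Z3)+(Z4)+(Z6)+(Z8) ⟹ level `M`, or `q` hard;
* `twf_mazur_of_cells` : the cells for all `(P, M, q, A)` ⟹ `s43t_Mazur_stmt`.
Prefix `twf_`.
-/
import Mathlib
import Fermat.Agent.TW.Easy.Res.Main
import Fermat.Agent.TW.Easy.WTwo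
import Fermat.Agent.TW.Easy.LevelOfDelta
import Fermat.Agent.TW.Easy.DetFrob
import Fermat.Agent.TW.Easy.BadPrime
import Fermat.Agent.S44.Big.Seams
import Fermat.Agent.S44.BLR.Main
import Fermat.Agent.S43.Top.Seams

set_option autoImplicit false
set_option linter.unusedSectionVars false
set_option linter.unusedVariables false
set_option linter.style.haveILetI false
set_option synthInstance.maxHeartbeats 400000
set_option maxHeartbeats 1000000

noncomputable section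

namespace Fermat.Agent.TW

open WeierstrassCurve WeierstrassCurve.Affine WeierstrassCurve.Affine.Point
open ModularCurve AlgebraicCurve IsLocalRing Fermat.Agent.JT3 Fermat.Agent.S35 Fermat.Agent.SS
  Fermat.Agent.S24 Fermat.Agent.S44 Fermat.Agent.S43 Fermat.Agent.MZ

local notation "Qb" => AlgebraicClosure ℚ
local notation "GQ" => (AlgebraicClosure ℚ ≃ₐ[ℚ] AlgebraicClosure ℚ)

/-! ### the cells -/

section Cells

variable (A : ValuationSubring Qb) {q : ℕ} [hq : Fact q.Prime]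
  (M : ℕ) [NeZero M] [NeZero q] [NeZero (M * q)] (hqM : ¬ q ∣ M) (m : ℕ)

/-- **(Z3) + (Z4)**: the component-group cells for `(A, m)` with weights `k`, operator `B` and
exceptional set `S`. -/
structure twf_CompCells (S : Finset ℕ) (k : s44e_Sg A M q hq.out hqM → ZMod m)
    (B : Nat.Primes → (s44e_Sg A M q hq.out hqM → ZMod m) →+
      (s44e_Sg A M q hq.out hqM → ZMod m)) : Prop where
  k_unit : ∀ i, IsUnit (k i)
  mono : ∀ z : JZero (M * q), m • z = 0 → (∀ σ ∈ A.inertiaSubgroupIn ℚ, σ • z = z) →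
    ∃ c : ZMod m, ∀ i, k i * twfr_nu A M q hq.out hqM m z i = c
  heckeRes : ∀ ℓ : Nat.Primes, ¬ (ℓ : ℕ) ∣ M * q → (ℓ : ℕ) ∉ S → ∀ z : JZero (M * q), m • z = 0 →
    twfr_nu A M q hq.out hqM m (heckeOperatorBar (M * q) ℓ z) =
      B ℓ (twfr_nu A M q hq.out hqM m z)
  B_eis : ∀ ℓ : Nat.Primes, ¬ (ℓ : ℕ) ∣ M * q → (ℓ : ℕ) ∉ S →
    B ℓ (fun i => (k i)⁻¹) = (((ℓ : ℕ) : ZMod m) + 1) • fun i => (k i)⁻¹

/-- **(Z6) [RES-Hecke]**: `δ (T_ℓ z) = T̃_ℓ (δ z)` on `J₀(M q)[m] ∩ ker ν`, `ℓ ∤ M q m`. -/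
def twf_ResHecke_stmt : Prop :=
  ∀ ℓ : Nat.Primes, ¬ (ℓ : ℕ) ∣ M * q → ¬ (ℓ : ℕ) ∣ m → ∀ z : JZero (M * q), m • z = 0 →
    twfr_nu A M q hq.out hqM m z = 0 →
    twfr_delta A M q m (heckeOperatorBar (M * q) ℓ z) =
      s44k2_TCp (ResidueField A) M ℓ (twfr_delta A M q m z)

/-- **(Z7) [TORIC]**: on the `I_A`-fixed `W_q`-eigen classes of `J₀(M q)[m]` with `ν = 0`, `δ = 0`:
`φ² = q²`. -/
def twf_Toric_stmt : Prop :=
  ∀ φ : GQ, A.IsFrobeniusAt φ q → ∀ z : JZero (M * q), m • z = 0 →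
    (∀ σ ∈ A.inertiaSubgroupIn ℚ, σ • z = z) →
    (s44w_WJ M q hq.out hqM z = z ∨ s44w_WJ M q hq.out hqM z = -z) →
    twfr_nu A M q hq.out hqM m z = 0 → twfr_delta A M q m z = 0 →
    φ • φ • z = ((q : ℤ) ^ 2) • z

/-- **(Z8) [TORIC-W]**: on the same classes `φ = (s q) W_q` (`s = ± 1`). -/
def twf_ToricW_stmt (s : ℤ) : Prop :=
  ∀ φ : GQ, A.IsFrobeniusAt φ q → ∀ z : JZero (M * q), m • z = 0 →
    (∀ σ ∈ A.inertiaSubgroupIn ℚ, σ • z = z) →
    (s44w_WJ M q hq.out hqM z = z ∨ s44w_WJ M q hq.out hqM z = -z) →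
    twfr_nu A M q hq.out hqM m z = 0 → twfr_delta A M q m z = 0 →
    φ • z = (s * (q : ℤ)) • s44w_WJ M q hq.out hqM z

end Cells

/-! ### additive maps on a subgroup -/

section Add

variable {J X : Type*} [AddCommGroup J] [AddCommGroup X] (H : AddSubgroup J) (f : J → X)
  (hadd : ∀ z ∈ H, ∀ z' ∈ H, f (z + z') = f z + f z')

include hadd

theorem twf_add_zero : f 0 = 0 := by
  have h := hadd 0 H.zero_mem 0 H.zero_mem
  rw [add_zero] at h
  exact left_eq_add.1 h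

theorem twf_add_nsmul (z : J) (hz : z ∈ H) (n : ℕ) : f (n • z) = n • f z := by
  induction n with
  | zero => rw [zero_nsmul, zero_nsmul]; exact twf_add_zero H f hadd
  | succ n ih =>
    rw [succ_nsmul, succ_nsmul, hadd _ (H.nsmul_mem hz n) _ hz, ih]

theorem twf_add_neg (z : J) (hz : z ∈ H) : f (-z) = -f z := by
  have h := hadd z hz (-z) (H.neg_mem hz)
  rw [add_neg_cancel, twf_add_zero H f hadd] at h
  exact (neg_eq_of_add_eq_zero_right h.symm).symm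

theorem twf_add_zsmul (z : J) (hz : z ∈ H) (n : ℤ) : f (n • z) = n • f z := by
  obtain ⟨k, rfl | rfl⟩ := n.eq_nat_or_neg
  · rw [natCast_zsmul, natCast_zsmul, twf_add_nsmul H f hadd z hz]
  · rw [neg_smul, neg_smul, natCast_zsmul, natCast_zsmul,
      twf_add_neg H f hadd _ (H.nsmul_mem hz k), twf_add_nsmul H f hadd z hz]

end Add

/-! ### the wiring -/

section Wiring

variable (P : FreyPackage) (M q : ℕ) [NeZero M] [NeZero q] [NeZero (M * q)] [hq : Fact q.Prime]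
  (hqM : ¬ q ∣ M)

/-- the `m`-torsion subgroup -/
def twf_torsSub (m : ℕ) : AddSubgroup (JZero (M * q)) where
  carrier := {z | m • z = 0}
  zero_mem' := smul_zero _
  add_mem' := fun {a b} ha hb => by
    show m • (a + b) = 0
    have ha' : m • a = 0 := ha
    have hb' : m • b = 0 := hb
    rw [nsmul_add, ha', hb', add_zero]
  neg_mem' := fun {a} ha => by
    show m • (-a) = 0
    have ha' : m • a = 0 := ha
    rw [neg_nsmul, ha', _root_.neg_zero]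

omit hq in
theorem twf_mem_torsSub (m : ℕ) (z : JZero (M * q)) : z ∈ twf_torsSub M q m ↔ m • z = 0 :=
  Iff.rfl

variable (A : ValuationSubring Qb) (hA : A.LiesOverPrime q)

include hA in
/-- `ν (n z) = n ν z` on `J[m]` -/
theorem twf_nu_zsmul {m : ℕ} (hm0 : m ≠ 0) (z : JZero (M * q)) (hz : m • z = 0) (n : ℤ) :
    twfr_nu A M q hq.out hqM m (n • z) = n • twfr_nu A M q hq.out hqM m z :=
  twf_add_zsmul (twf_torsSub M q m) (twfr_nu A M q hq.out hqM m)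
    (fun z hz z' hz' => twfr_nu_add A hA M hqM hm0 hz hz') z hz n

/-- the subgroup `J[m] ∩ ker ν` -/
def twf_kerNu (hA : A.LiesOverPrime q) {m : ℕ} (hm0 : m ≠ 0) : AddSubgroup (JZero (M * q)) where
  carrier := {z | m • z = 0 ∧ twfr_nu A M q hq.out hqM m z = 0}
  zero_mem' := ⟨smul_zero _, twf_add_zero (twf_torsSub M q m) (twfr_nu A M q hq.out hqM m)
    (fun z hz z' hz' => twfr_nu_add A hA M hqM hm0 hz hz')⟩
  add_mem' := fun {a b} ha hb => by
    refine ⟨(twf_torsSub M q m).add_mem ha.1 hb.1, ?_⟩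
    rw [twfr_nu_add A hA M hqM hm0 ha.1 hb.1, ha.2, hb.2, add_zero]
  neg_mem' := fun {a} ha => by
    refine ⟨(twf_torsSub M q m).neg_mem ha.1, ?_⟩
    rw [twf_add_neg (twf_torsSub M q m) (twfr_nu A M q hq.out hqM m)
      (fun z hz z' hz' => twfr_nu_add A hA M hqM hm0 hz hz') a ha.1, ha.2, _root_.neg_zero]

include hA in
/-- `δ (n z) = n δ z` on `J[m] ∩ ker ν` -/
theorem twf_delta_zsmul (hq2 : q ≠ 2) {m : ℕ} (hm0 : m ≠ 0) (hm6 : Nat.Coprime m 6)
    (z : JZero (M * q)) (hz : m • z = 0) (hν : twfr_nu A M q hq.out hqM m z = 0) (n : ℤ) :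
    twfr_delta A M q m (n • z) = n • twfr_delta A M q m z :=
  twf_add_zsmul (twf_kerNu M q hqM A hA hm0) (twfr_delta A M q m)
    (fun z hz z' hz' => twfr_delta_add_of_nu A hA M hqM hq2 hm0 hm6 hz.1 hz'.1 hz.2 hz'.2)
    z ⟨hz, hν⟩ n

include hA in
/-- **(Z5)**: (Z3) + (Z4) + [EIS] ⟹ `ν (ι y) = 0` for a copy `ι` of an `E[p]` unramified at `q`. -/
theorem twf_nu_zero
    (hirr : GaloisRepIsIrreducible (K := AlgebraicClosure ℚ) ℚ P.freyCurve P.p)
    (hunr : P.GaloisRepUnramifiedAt q)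
    {S : Finset ℕ} {k : s44e_Sg A M q hq.out hqM → ZMod P.p}
    {B : Nat.Primes → (s44e_Sg A M q hq.out hqM → ZMod P.p) →+
      (s44e_Sg A M q hq.out hqM → ZMod P.p)}
    (hC : twf_CompCells A M hqM P.p S k B)
    (W : WeierstrassCurve ℤ) (ι : s44_Tors P →+ JZero (M * q)) (hι : s44_IsCopy P (M * q) W ι)
    (y : s44_Tors P) : twfr_nu A M q hq.out hqM P.p (ι y) = 0 := by
  haveI : Fact P.p.Prime := ⟨P.pp⟩
  have hp : ∀ y : s44_Tors P, P.p • ι y = 0 := fun y => by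
    rw [← map_nsmul, s44_tors_smul, _root_.map_zero]
  have hfix : ∀ σ ∈ A.inertiaSubgroupIn ℚ, σ • ι y = ι y := fun σ hσ => by
    rw [← hι.equiv]
    exact congrArg ι (hunr A hA σ hσ y)
  obtain ⟨c, hc⟩ := hC.mono (ι y) (hp y) hfix
  rcases isEmpty_or_nonempty (s44e_Sg A M q hq.out hqM) with hE | hE
  · funext i
    exact (hE.false i).elim
  have hp2 : P.p ≠ 2 := by
    have := P.hp5
    omega
  have : P.freyCurve.IsElliptic :=
    ⟨isUnit_iff_ne_zero.2 (Fermat.Agent.S05.freyCurve_Δ_ne_zero P)⟩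
  obtain ⟨ℓ, hℓ, hgood, hℓS, hℓp, hnd⟩ :=
    Fermat.Agent.LR.lrv_nonEis_model P.freyCurve hι.model P.pp hp2 hirr
      (S ∪ (M * q).primeFactors)
  have hℓS' : ℓ ∉ S := fun h => hℓS (Finset.mem_union_left _ h)
  have hℓN : ¬ ℓ ∣ M * q := fun h =>
    hℓS (Finset.mem_union_right _ (Nat.mem_primeFactors.mpr ⟨hℓ, h, NeZero.ne _⟩))
  have hBr : B ⟨ℓ, hℓ⟩ (twfr_nu A M q hq.out hqM P.p (ι y)) =
      ((W.apOfModel ℓ : ℤ) : ZMod P.p) • twfr_nu A M q hq.out hqM P.p (ι y) := by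
    rw [← hC.heckeRes ⟨ℓ, hℓ⟩ hℓN hℓS' (ι y) (hp y), hι.eigen ⟨ℓ, hℓ⟩ hgood hℓN hℓp y,
      twf_nu_zsmul M q hqM A hA P.hp0 _ (hp y)]
    funext i
    show (W.apOfModel ℓ) • twfr_nu A M q hq.out hqM P.p (ι y) i =
      ((W.apOfModel ℓ : ℤ) : ZMod P.p) * twfr_nu A M q hq.out hqM P.p (ι y) i
    rw [zsmul_eq_mul]
  refine (s44i_eis k (fun i => (hC.k_unit i).ne_zero) (B ⟨ℓ, hℓ⟩) (s44i_map_smul _) _
    (hC.B_eis ⟨ℓ, hℓ⟩ hℓN hℓS') (twfr_nu A M q hq.out hqM P.p (ι y)) c hc _ hBr ?_).2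
  intro heq
  apply hnd
  rw [← ZMod.intCast_zmod_eq_zero_iff_dvd]
  push_cast
  show ((ℓ : ℕ) : ZMod P.p) + 1 - ((W.apOfModel ℓ : ℤ) : ZMod P.p) = 0
  rw [← heq, sub_self]

include hA in
/-- (Z6) + OLD-k: for a copy `ι` with `ν ∘ ι = 0`, either `δ (ι y) = 0` or the level is `M`. -/
theorem twf_delta_zero_or_level (hq2 : q ≠ 2) (hqabc : (q : ℤ) ∣ P.a * P.b * P.c)
    (hres : twf_ResHecke_stmt A M hqM P.p)
    (W : WeierstrassCurve ℤ) (ι : s44_Tors P →+ JZero (M * q)) (hι : s44_IsCopy P (M * q) W ι)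
    (y : s44_Tors P) (hν : twfr_nu A M q hq.out hqM P.p (ι y) = 0)
    (hne : twfr_delta A M q P.p (ι y) ≠ 0) : P.ModularRepOfLevel M := by
  have hp : ∀ y : s44_Tors P, P.p • ι y = 0 := fun y => by
    rw [← map_nsmul, s44_tors_smul, _root_.map_zero]
  have hm6 : Nat.Coprime P.p 6 := by
    have h5 := P.hp5
    have h2 : Nat.Coprime P.p 2 := (Nat.Prime.coprime_iff_not_dvd P.pp).2 (fun h => by
      have := Nat.le_of_dvd (by norm_num) h; omega)
    have h3 : Nat.Coprime P.p 3 := (Nat.Prime.coprime_iff_not_dvd P.pp).2 (fun h => by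
      have := Nat.le_of_dvd (by norm_num) h; omega)
    exact Nat.Coprime.mul_right h2 h3
  have hbad : ¬ W.IsGoodPrimeFor q := twf_not_good_of_dvd_abc P hq.out hqabc W hι.model
  refine twf_level_of_delta P M q hq.out hqM W hι.model hbad A hA _ hne
    (twfr_delta_tors A M q P.p (ι y)) ?_
  intro ℓ hgood hℓM hℓp
  have hℓq : (ℓ : ℕ) ≠ q := fun h => hbad (h ▸ hgood)
  have hℓN : ¬ (ℓ : ℕ) ∣ M * q := by
    intro h
    rcases (Nat.Prime.dvd_mul ℓ.2).mp h with h1 | h1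
    · exact hℓM h1
    · exact hℓq ((Nat.prime_dvd_prime_iff_eq ℓ.2 hq.out).mp h1)
  have hℓp' : ¬ (ℓ : ℕ) ∣ P.p := fun h => hℓp ((Nat.prime_dvd_prime_iff_eq ℓ.2 P.pp).mp h)
  rw [← hres ℓ hℓN hℓp' (ι y) (hp y) hν, hι.eigen ℓ hgood hℓN hℓp y,
    twf_delta_zsmul M q hqM A hA hq2 P.hp0 hm6 (ι y) (hp y) hν]

end Wiring

/-! ### Mazur's principle from the cells -/

section Mazur

variable (P : FreyPackage) (M q : ℕ) [NeZero M] [NeZero q] [NeZero (M * q)] [hq : Fact q.Prime]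
  (hqM : ¬ q ∣ M)

/-- the common part of the two wirings: a `W_q`-eigen copy on which `ν = 0 = δ`, or level `M`. -/
theorem twf_mazur_prep (hq2 : q ≠ 2) (hqabc : (q : ℤ) ∣ P.a * P.b * P.c)
    (hirr : GaloisRepIsIrreducible (K := AlgebraicClosure ℚ) ℚ P.freyCurve P.p)
    (hmod : P.ModularRepOfLevel (M * q)) (hunr : P.GaloisRepUnramifiedAt q)
    (hcomp : ∀ A : ValuationSubring Qb, A.LiesOverPrime q →
      ∃ (S : Finset ℕ) (k : s44e_Sg A M q hq.out hqM → ZMod P.p)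
        (B : Nat.Primes → (s44e_Sg A M q hq.out hqM → ZMod P.p) →+
          (s44e_Sg A M q hq.out hqM → ZMod P.p)), twf_CompCells A M hqM P.p S k B)
    (hres : ∀ A : ValuationSubring Qb, A.LiesOverPrime q → twf_ResHecke_stmt A M hqM P.p)
    (hlev : ¬ P.ModularRepOfLevel M) :
    ∃ (W : WeierstrassCurve ℤ) (ι : s44_Tors P →+ JZero (M * q)), s44_IsCopy P (M * q) W ι ∧
      (∀ y, P.p • ι y = 0) ∧
      (∀ y, s44w_WJ M q hq.out hqM (ι y) = ι y ∨ s44w_WJ M q hq.out hqM (ι y) = -ι y) ∧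
      ∀ A : ValuationSubring Qb, A.LiesOverPrime q → ∀ y,
        (∀ σ ∈ A.inertiaSubgroupIn ℚ, σ • ι y = ι y) ∧
        twfr_nu A M q hq.out hqM P.p (ι y) = 0 ∧ twfr_delta A M q P.p (ι y) = 0 := by
  obtain ⟨W, ι₀, hι₀⟩ := s44b_blr P (M * q) hirr hmod
  obtain ⟨ε, ι, hε, hι, -, hW⟩ := twf_w_copy P M q hq.out hqM hirr W ι₀ hι₀
  have hp : ∀ y : s44_Tors P, P.p • ι y = 0 := fun y => by
    rw [← map_nsmul, s44_tors_smul, _root_.map_zero]
  refine ⟨W, ι, hι, hp, fun y => ?_, fun A hA y => ⟨fun σ hσ => ?_, ?_⟩⟩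
  · rcases hε with rfl | rfl
    · left; rw [hW y, one_smul]
    · right; rw [hW y, neg_one_smul]
  · rw [← hι.equiv]
    exact congrArg ι (hunr A hA σ hσ y)
  · obtain ⟨S, k, B, hC⟩ := hcomp A hA
    have hν := twf_nu_zero P M q hqM A hA hirr hunr hC W ι hι y
    refine ⟨hν, ?_⟩
    by_contra hne
    exact hlev (twf_delta_zero_or_level P M q hqM A hA hq2 hqabc (hres A hA) W ι hι y hν hne)

/-- **STAGED WIRING**: (Z3) + (Z4) + (Z6) + (Z7) ⟹ level `M`, or `q` hard, or `p ∣ q + 1`. -/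
theorem twf_mazur_staged (hq2 : q ≠ 2) (hqp : q ≠ P.p) (hqabc : (q : ℤ) ∣ P.a * P.b * P.c)
    (hirr : GaloisRepIsIrreducible (K := AlgebraicClosure ℚ) ℚ P.freyCurve P.p)
    (hmod : P.ModularRepOfLevel (M * q)) (hunr : P.GaloisRepUnramifiedAt q)
    (hcomp : ∀ A : ValuationSubring Qb, A.LiesOverPrime q →
      ∃ (S : Finset ℕ) (k : s44e_Sg A M q hq.out hqM → ZMod P.p)
        (B : Nat.Primes → (s44e_Sg A M q hq.out hqM → ZMod P.p) →+
          (s44e_Sg A M q hq.out hqM → ZMod P.p)), twf_CompCells A M hqM P.p S k B)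
    (hres : ∀ A : ValuationSubring Qb, A.LiesOverPrime q → twf_ResHecke_stmt A M hqM P.p)
    (htor : ∀ A : ValuationSubring Qb, A.LiesOverPrime q → twf_Toric_stmt A M hqM P.p) :
    P.ModularRepOfLevel M ∨ s43t_IsHard P q ∨ P.p ∣ q + 1 := by
  by_cases hlev : P.ModularRepOfLevel M
  · exact Or.inl hlev
  right
  obtain ⟨W, ι, hι, hp, hWι, hall⟩ :=
    twf_mazur_prep P M q hqM hq2 hqabc hirr hmod hunr hcomp hres hlev
  refine twf_hard_or_of_frob_sq P (M * q) hirr hmod hq.out hqp ?_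
  intro A hA φ hφ x
  obtain ⟨hfix, hν, hδ⟩ := hall A hA x
  have h := htor A hA φ hφ (ι x) (hp x) hfix (hWι x) hν hδ
  apply hι.inj
  rw [hι.equiv, hι.equiv, h, map_zsmul]

/-- **FULL WIRING**: (Z3) + (Z4) + (Z6) + (Z8) ⟹ level `M`, or `q` hard. -/
theorem twf_mazur_full (hq2 : q ≠ 2) (hqp : q ≠ P.p) (hqabc : (q : ℤ) ∣ P.a * P.b * P.c)
    (hirr : GaloisRepIsIrreducible (K := AlgebraicClosure ℚ) ℚ P.freyCurve P.p)
    (hmod : P.ModularRepOfLevel (M * q)) (hunr : P.GaloisRepUnramifiedAt q)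
    (hcomp : ∀ A : ValuationSubring Qb, A.LiesOverPrime q →
      ∃ (S : Finset ℕ) (k : s44e_Sg A M q hq.out hqM → ZMod P.p)
        (B : Nat.Primes → (s44e_Sg A M q hq.out hqM → ZMod P.p) →+
          (s44e_Sg A M q hq.out hqM → ZMod P.p)), twf_CompCells A M hqM P.p S k B)
    (hres : ∀ A : ValuationSubring Qb, A.LiesOverPrime q → twf_ResHecke_stmt A M hqM P.p)
    (htorW : ∀ A : ValuationSubring Qb, A.LiesOverPrime q →
      ∃ s : ℤ, (s = 1 ∨ s = -1) ∧ twf_ToricW_stmt A M hqM P.p s) :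
    P.ModularRepOfLevel M ∨ s43t_IsHard P q := by
  by_cases hlev : P.ModularRepOfLevel M
  · exact Or.inl hlev
  right
  obtain ⟨W, ι, hι, hp, hWι, hall⟩ :=
    twf_mazur_prep P M q hqM hq2 hqabc hirr hmod hunr hcomp hres hlev
  -- the sign of `W_q` on the copy is global
  obtain ⟨x₀, y₀, hxy⟩ := hirr.1
  have hglob : (∀ y, s44w_WJ M q hq.out hqM (ι y) = ι y) ∨
      (∀ y, s44w_WJ M q hq.out hqM (ι y) = -ι y) := by
    by_contra hcon
    push Not at hcon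
    obtain ⟨⟨y1, h1⟩, ⟨y2, h2⟩⟩ := hcon
    have e1 : s44w_WJ M q hq.out hqM (ι y1) = -ι y1 := (hWι y1).resolve_left h1
    have e2 : s44w_WJ M q hq.out hqM (ι y2) = ι y2 := (hWι y2).resolve_right h2
    -- `y1 + y2`
    rcases hWι (y1 + y2) with h | h
    · rw [map_add, map_add, e1, e2] at h
      have : -ι y1 = ι y1 := add_right_cancel h
      exact h1 (by rw [e1, this])
    · rw [map_add, map_add, e1, e2, neg_add] at h
      have : ι y2 = -ι y2 := add_left_cancel h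
      exact h2 (by rw [e2]; exact this)
  refine twf_hard_of_scalar P (M * q) hirr hmod hq.out hqp ?_
  intro A hA φ hφ
  obtain ⟨s, hs, htW⟩ := htorW A hA
  rcases hglob with hg | hg
  · refine ⟨s * q, ?_, fun x => ?_⟩
    · rcases hs with rfl | rfl <;> push_cast <;> ring
    · obtain ⟨hfix, hν, hδ⟩ := hall A hA x
      have h := htW φ hφ (ι x) (hp x) hfix (hWι x) hν hδ
      apply hι.inj
      rw [hι.equiv, h, hg x, map_zsmul]
  · refine ⟨-(s * q), ?_, fun x => ?_⟩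
    · rcases hs with rfl | rfl <;> push_cast <;> ring
    · obtain ⟨hfix, hν, hδ⟩ := hall A hA x
      have h := htW φ hφ (ι x) (hp x) hfix (hWι x) hν hδ
      apply hι.inj
      rw [hι.equiv, h, hg x, map_zsmul, zsmul_neg, neg_zsmul]

end Mazur

/-! ### the cells for all `(M, q, p, A)` and `s43t_Mazur_stmt` -/

section Final

/-- **(Z3) + (Z4)** for all `(M, q, p, A)`, `p ≥ 5` prime, `p ≠ q`. -/
def twf_CompAll_stmt : Prop :=
  ∀ (M q : ℕ) [NeZero M] [NeZero q] [NeZero (M * q)] [hq : Fact q.Prime] (hqM : ¬ q ∣ M) (p : ℕ),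
    q ≠ 2 → p.Prime → 5 ≤ p → p ≠ q → ∀ A : ValuationSubring Qb, A.LiesOverPrime q →
      ∃ (S : Finset ℕ) (k : s44e_Sg A M q hq.out hqM → ZMod p)
        (B : Nat.Primes → (s44e_Sg A M q hq.out hqM → ZMod p) →+
          (s44e_Sg A M q hq.out hqM → ZMod p)), twf_CompCells A M hqM p S k B

/-- **(Z6)** for all `(M, q, p, A)`. -/
def twf_ResHeckeAll_stmt : Prop :=
  ∀ (M q : ℕ) [NeZero M] [NeZero q] [NeZero (M * q)] [hq : Fact q.Prime] (hqM : ¬ q ∣ M) (p : ℕ),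
    q ≠ 2 → p.Prime → 5 ≤ p → p ≠ q → ∀ A : ValuationSubring Qb, A.LiesOverPrime q →
      twf_ResHecke_stmt A M hqM p

/-- **(Z7)** for all `(M, q, p, A)`. -/
def twf_ToricAll_stmt : Prop :=
  ∀ (M q : ℕ) [NeZero M] [NeZero q] [NeZero (M * q)] [hq : Fact q.Prime] (hqM : ¬ q ∣ M) (p : ℕ),
    q ≠ 2 → p.Prime → 5 ≤ p → p ≠ q → ∀ A : ValuationSubring Qb, A.LiesOverPrime q →
      twf_Toric_stmt A M hqM p

/-- **(Z8)** for all `(M, q, p, A)` (the sign may depend on them). -/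
def twf_ToricWAll_stmt : Prop :=
  ∀ (M q : ℕ) [NeZero M] [NeZero q] [NeZero (M * q)] [hq : Fact q.Prime] (hqM : ¬ q ∣ M) (p : ℕ),
    q ≠ 2 → p.Prime → 5 ≤ p → p ≠ q → ∀ A : ValuationSubring Qb, A.LiesOverPrime q →
      ∃ s : ℤ, (s = 1 ∨ s = -1) ∧ twf_ToricW_stmt A M hqM p s

/-- the bookkeeping `N = M q` shared by the two final statements -/
theorem twf_mazur_bookkeeping (P : FreyPackage) {N q : ℕ} (hcond : P.IsConductorLevel N)
    (hq : q.Prime) (hqN : q ∣ N)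
    (hmod : P.ModularRepOfLevel N)
    (key : ∀ (M : ℕ) [NeZero M] [NeZero q] [NeZero (M * q)] [Fact q.Prime] (_ : ¬ q ∣ M),
      (q : ℤ) ∣ P.a * P.b * P.c → P.ModularRepOfLevel (M * q) → N = M * q →
      P.ModularRepOfLevel M) :
    ∃ M : ℕ, M ∣ N ∧ ¬ q ∣ M ∧ P.ModularRepOfLevel M := by
  obtain ⟨M, rfl⟩ := hqN
  have hN0 : q * M ≠ 0 := hcond.pos.ne'
  have hM0 : M ≠ 0 := fun h => hN0 (by rw [h, mul_zero])
  have hqM : ¬ q ∣ M := by
    rintro ⟨k, rfl⟩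
    exact hcond.sq_not_dvd hq ⟨k, by ring⟩
  have e : q * M = M * q := mul_comm _ _
  haveI : NeZero M := ⟨hM0⟩
  haveI : NeZero q := ⟨hq.ne_zero⟩
  haveI : NeZero (M * q) := ⟨by rw [← e]; exact hN0⟩
  haveI : Fact q.Prime := ⟨hq⟩
  have hqabc : (q : ℤ) ∣ P.a * P.b * P.c := hcond.support q hq (Dvd.intro M rfl)
  exact ⟨M, ⟨q, e⟩, hqM, key M hqM hqabc (e ▸ hmod) e⟩

/-- **MAZUR'S PRINCIPLE FROM THE CELLS (Z3), (Z4), (Z6), (Z8).** -/
theorem twf_mazur_of_cells (hC : twf_CompAll_stmt) (hR : twf_ResHeckeAll_stmt)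
    (hT : twf_ToricWAll_stmt) : s43t_Mazur_stmt := by
  intro P N q hcond hq hq2 hqp hqN hpN hirr hmod hunr hhard
  refine twf_mazur_bookkeeping P hcond hq hqN hmod ?_
  intro M _ _ _ _ hqM hqabc hmod' _
  have hpq : P.p ≠ q := fun h => hqp h.symm
  rcases twf_mazur_full P M q hqM hq2 hqp hqabc hirr hmod' hunr
    (fun A hA => hC M q hqM P.p hq2 P.pp P.hp5 hpq A hA)
    (fun A hA => hR M q hqM P.p hq2 P.pp P.hp5 hpq A hA)
    (fun A hA => hT M q hqM P.p hq2 P.pp P.hp5 hpq A hA) with h | h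
  · exact h
  · exact absurd h hhard

/-- the staged form of Mazur's principle: `q` not hard AND `q ≢ -1 mod p`. -/
def twf_MazurStaged_stmt : Prop :=
  ∀ (P : FreyPackage) (N q : ℕ), P.IsConductorLevel N → q.Prime → q ≠ 2 → q ≠ P.p → q ∣ N →
    ¬ P.p ∣ N →
    GaloisRepIsIrreducible (K := AlgebraicClosure ℚ) ℚ P.freyCurve P.p →
    P.ModularRepOfLevel N → P.GaloisRepUnramifiedAt q → ¬ s43t_IsHard P q → ¬ P.p ∣ q + 1 →
    ∃ M : ℕ, M ∣ N ∧ ¬ q ∣ M ∧ P.ModularRepOfLevel M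

/-- **MAZUR'S PRINCIPLE FOR `q ≢ -1 mod p` FROM THE CELLS (Z3), (Z4), (Z6), (Z7).** -/
theorem twf_mazur_staged_of_cells (hC : twf_CompAll_stmt) (hR : twf_ResHeckeAll_stmt)
    (hT : twf_ToricAll_stmt) : twf_MazurStaged_stmt := by
  intro P N q hcond hq hq2 hqp hqN hpN hirr hmod hunr hhard hq1
  refine twf_mazur_bookkeeping P hcond hq hqN hmod ?_
  intro M _ _ _ _ hqM hqabc hmod' _
  have hpq : P.p ≠ q := fun h => hqp h.symm
  rcases twf_mazur_staged P M q hqM hq2 hqp hqabc hirr hmod' hunr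
    (fun A hA => hC M q hqM P.p hq2 P.pp P.hp5 hpq A hA)
    (fun A hA => hR M q hqM P.p hq2 P.pp P.hp5 hpq A hA)
    (fun A hA => hT M q hqM P.p hq2 P.pp P.hp5 hpq A hA) with h | h | h
  · exact h
  · exact absurd h hhard
  · exact absurd h hq1

end Final

end Fermat.Agent.TW
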