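import Fermat.Agent.TW.Easy.Res.Main
import Fermat.Agent.S44.OldK.Cls
import Fermat.Agent.S44.OldK.RedHecke
import Fermat.Agent.S44.OldK.LevelM
import Fermat.Agent.S44.WJ.Hecke

/-!
# Project ONE MACHINE, block [F], cell (Z6) [RES-Hecke] (helper12)

Two-prime twin of the `hecke` branch of `s44k2d_Delta_of` (`S44/OldK/DeltaInst.lean`):
`A` a valuation subring of `ℚ̄` over the odd prime `q`, `q ∤ M`, level `M q`, exponent `m` coprime
to `6`; `δ = twfr_delta` (helper20, `TW/Easy/Res`), `T̃_ℓ = s44k2_TCp kA M ℓ` the Hecke operator of the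
special fibre of level `M`.

* `twfk_Star A M q m ℓ` : the hypothesis **(★★)** at `ℓ`: if `fb` is the `w_∞`-reduction of a
  representative of `z ∈ J₀(M q)[m]`, then `N_ᾱ (β̄ fb)` is one for `T_ℓ z`  (producer: cell (Z4));
* `twfk_delta_eq_cls`   : on `J₀(M q)[m] ∩ ker ν`: `δ z = s44k2d_cls m f̄_z`;
* **`twfk_delta_hecke`** : (★★) ⟹ `δ (T_ℓ z) = T̃_ℓ (δ z)` for `z ∈ J₀(M q)[m] ∩ ker ν`, `ℓ ∤ M q`;
* **`twfk_delta0_hecke`**: the same for `δ₀ := δ ∘ W_q` (`W_q = s44w_WJ M q`).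
Prefix `twfk_`.
-/

set_option autoImplicit false
set_option linter.unusedSectionVars false
set_option linter.style.haveILetI false
set_option synthInstance.maxHeartbeats 400000
set_option maxHeartbeats 1000000

noncomputable section

namespace Fermat.Agent.TW

open ModularCurve AlgebraicCurve IsLocalRing Fermat.Agent.JT3 Fermat.Agent.S35 Fermat.Agent.SS
  Fermat.Agent.S24 Fermat.Agent.SS2 Fermat.Agent.S44 Fermat.Agent.MZ

local notation "Qb" => AlgebraicClosure ℚ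

section Star

variable (A : ValuationSubring Qb) (M : ℕ) [NeZero M]

/-- **(★★) at `ℓ`**: `N_ᾱ (β̄ fb)` is a `w_∞`-reduction of a representative of `T_ℓ z` whenever `fb`
is one for `z ∈ J₀(M q)[m]`. -/
def twfk_Star (q m : ℕ) [NeZero (M * q)] (ℓ : Nat.Primes) : Prop :=
  ∀ (z : JZero (M * q)) (fb : s44e_FF A M), m • z = 0 → twfr_Fbar A M q m z fb →
    twfr_Fbar A M q m (heckeOperatorBar (M * q) ℓ z)
      (haveI : NeZero (ℓ : ℕ) := ⟨ℓ.2.ne_zero⟩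
       s35pe_normAlong (mzrh_alC (s44e_kA A) M ℓ) (mzrh_beC (s44e_kA A) M ℓ fb))

end Star

section Main

variable (A : ValuationSubring Qb) {q : ℕ} [hq : Fact q.Prime] (hA : A.LiesOverPrime q)
  (M : ℕ) [NeZero M] [NeZero q] [NeZero (M * q)] (hqM : ¬ q ∣ M) (hq2 : q ≠ 2)
  {m : ℕ} (hm0 : m ≠ 0) (hm6 : Nat.Coprime m 6)

include hA hqM hq2 hm0 hm6

/-- on `J₀(M q)[m] ∩ ker ν` the chosen reduction `f̄_z` is `m`-divisible. -/
theorem twfk_pdiv {z : JZero (M * q)} (hz : m • z = 0)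
    (hν : twfr_nu A M q hq.out hqM m z = 0) :
    s44k2d_PDiv (K := s44e_kA A) m (twfr_fbar A M q m z) :=
  ⟨(twfr_fbar_spec' A hA M hqM hm0 hz).1, twfr_dvd_all A hA M hqM hq2 hm0 hm6 hz hν⟩

/-- for ANY `f̄_z` which is `m`-divisible: `δ z = s44k2d_cls m f̄_z`. -/
theorem twfk_delta_eq_cls_of {z : JZero (M * q)} (hz : m • z = 0) {fb : s44e_FF A M}
    (h : twfr_Fbar A M q m z fb) (hpd : s44k2d_PDiv (K := s44e_kA A) m fb) :
    haveI : HasPrincipalDivisors (s44e_kA A) (s44e_FF A M) :=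
      (haveI : CharP (s44e_kA A) q := jcr_charP A hA
       haveI : IsAlgClosed (s44e_kA A) := jcr_isAlgClosed A
       rt_hasPrincipalDivisors (jcr_isSepGen (k := s44e_kA A) M hqM (jcr_rho A hA)))
    twfr_delta A M q m z = s44k2d_cls (K := s44e_kA A) m fb := by
  haveI : CharP (s44e_kA A) q := jcr_charP A hA
  haveI : IsAlgClosed (s44e_kA A) := jcr_isAlgClosed A
  haveI : HasPrincipalDivisors (s44e_kA A) (s44e_FF A M) :=
    rt_hasPrincipalDivisors (jcr_isSepGen (k := s44e_kA A) M hqM (jcr_rho A hA))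
  obtain ⟨D, hD, hcls⟩ := s44k2d_cls_spec hm0 hpd
  rw [hcls]
  exact twfr_delta_eq A hq.out hA M hqM (Nat.pos_of_ne_zero hm0) (s44rd_hmem A hA M hqM) hz h D hD

/-- on `J₀(M q)[m] ∩ ker ν`: `δ z = s44k2d_cls m f̄_z`. -/
theorem twfk_delta_eq_cls {z : JZero (M * q)} (hz : m • z = 0)
    (hν : twfr_nu A M q hq.out hqM m z = 0) :
    haveI : HasPrincipalDivisors (s44e_kA A) (s44e_FF A M) :=
      (haveI : CharP (s44e_kA A) q := jcr_charP A hA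
       haveI : IsAlgClosed (s44e_kA A) := jcr_isAlgClosed A
       rt_hasPrincipalDivisors (jcr_isSepGen (k := s44e_kA A) M hqM (jcr_rho A hA)))
    twfr_delta A M q m z = s44k2d_cls (K := s44e_kA A) m (twfr_fbar A M q m z) :=
  twfk_delta_eq_cls_of A hA M hqM hq2 hm0 hm6 hz (twfr_fbar_spec' A hA M hqM hm0 hz)
    (twfk_pdiv A hA M hqM hq2 hm0 hm6 hz hν)

/-- **(Z6) [RES-Hecke]**: (★★) ⟹ `δ (T_ℓ z) = T̃_ℓ (δ z)` on `J₀(M q)[m] ∩ ker ν`, `ℓ ∤ M q`. -/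
theorem twfk_delta_hecke (ℓ : Nat.Primes) (hℓ : ¬ (ℓ : ℕ) ∣ M * q)
    (hStar : twfk_Star A M q m ℓ) {z : JZero (M * q)} (hz : m • z = 0)
    (hν : twfr_nu A M q hq.out hqM m z = 0) :
    twfr_delta A M q m (heckeOperatorBar (M * q) ℓ z) =
      s44k2_TCp (s44e_kA A) M ℓ (twfr_delta A M q m z) := by
  haveI : NeZero (ℓ : ℕ) := ⟨ℓ.2.ne_zero⟩
  haveI : CharP (s44e_kA A) q := jcr_charP A hA
  haveI : IsAlgClosed (s44e_kA A) := jcr_isAlgClosed A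
  haveI hpd : HasPrincipalDivisors (s44e_kA A) (s44e_FF A M) :=
    rt_hasPrincipalDivisors (jcr_isSepGen (k := s44e_kA A) M hqM (jcr_rho A hA))
  have hqℓ : ¬ q ∣ (ℓ : ℕ) := fun hd =>
    hℓ ((Nat.prime_dvd_prime_iff_eq hq.out ℓ.2).mp hd ▸ Dvd.intro_left M rfl)
  have hTz : m • heckeOperatorBar (M * q) ℓ z = 0 := by
    rw [← map_nsmul, hz, map_zero]
  obtain ⟨hαC, hβC, hPC, hfinC, hFIC, hNC⟩ :=
    mzrh_heckeInputsC M ℓ (jcr_rho A hA) hqM hqℓ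
  haveI := hPC
  have hs := twfr_fbar_spec' A hA M hqM hm0 hz
  have hpdiv := twfk_pdiv A hA M hqM hq2 hm0 hm6 hz hν
  have hS := hStar z _ hz hs
  have hpdivN := s44k2d_pdiv_corr (mzrh_beC (s44e_kA A) M ℓ) (mzrh_alC (s44e_kA A) M ℓ)
    hβC hαC hFIC hfinC hNC hm0 hpdiv
  rw [twfk_delta_eq_cls_of A hA M hqM hq2 hm0 hm6 hTz hS hpdivN,
    twfk_delta_eq_cls A hA M hqM hq2 hm0 hm6 hz hν,
    s44k2d_cls_corr (mzrh_beC (s44e_kA A) M ℓ) (mzrh_alC (s44e_kA A) M ℓ) hβC hαC hFIC hfinC hNC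
      hm0 hpdiv, s44k2_TCp_eq, s44k2_TC_eq hαC hβC hFIC hfinC hNC]

/-- **(Z6) for `δ₀ = δ ∘ W_q`**: (★★) ⟹ `δ₀ (T_ℓ z) = T̃_ℓ (δ₀ z)` for `z ∈ J₀(M q)[m]` with
`ν (W_q z) = 0`, `ℓ ∤ M q`. -/
theorem twfk_delta0_hecke (ℓ : Nat.Primes) (hℓ : ¬ (ℓ : ℕ) ∣ M * q)
    (hStar : twfk_Star A M q m ℓ) {z : JZero (M * q)} (hz : m • z = 0)
    (hν : twfr_nu A M q hq.out hqM m (s44w_WJ M q hq.out hqM z) = 0) :
    twfr_delta A M q m (s44w_WJ M q hq.out hqM (heckeOperatorBar (M * q) ℓ z)) =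
      s44k2_TCp (s44e_kA A) M ℓ (twfr_delta A M q m (s44w_WJ M q hq.out hqM z)) := by
  have hWz : m • s44w_WJ M q hq.out hqM z = 0 := by rw [← map_nsmul, hz, map_zero]
  haveI : NeZero (ℓ : ℕ) := ⟨ℓ.2.ne_zero⟩
  have h1 := s44w_WJ_hecke M q (ℓ : ℕ) hq.out hqM ℓ.2 hℓ z m hm0 hz
  have h2 : (⟨(ℓ : ℕ), ℓ.2⟩ : Nat.Primes) = ℓ := rfl
  rw [h2] at h1
  rw [h1]
  exact twfk_delta_hecke A hA M hqM hq2 hm0 hm6 ℓ hℓ hStar hWz hν

end Main

end Fermat.Agent.TW
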