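/-
Project ONE MACHINE (S43), block [F] EASY (architect helper1), cell F5 = (Z10) of the dossier:
THE ATKIN–LEHNER INVOLUTION `W_q` ON `J₀(M q)[m]` FOR AN EXPONENT `m` INDEPENDENT OF `q`, AND THE
`W_q`-EIGEN COPY OF `E[p]`.

On main `s44w_WJ_WJ`, `s44w_as_WJ`, `s44w_bs_WJ` (S44/WJ/Basic.lean) are stated for classes killed by
the LEVEL prime; their proofs never use that the exponent is the level prime.

* `twf_w_rep_WJ`  : `f` represents `z` (exponent `m`) ⟹ `W̄ f` represents `W_q z`;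
* `twf_w_WJ_WJ`   : `W_q (W_q z) = z` for `m z = 0`, `m ≠ 0`;
* `twf_w_as_WJ`, `twf_w_bs_WJ` : `α_* ∘ W_q = β_*`, `β_* ∘ W_q = α_*` on `J₀(M q)[m]`;
* `twf_w_inj_of_ne_zero` : a nonzero `G_ℚ`-equivariant additive map out of the irreducible `E[p]` is
  injective;
* **`twf_w_copy`** : from a copy `ι` of `E[p]` in `J₀(M q)` (`p ∤ 2`), a copy `ι'` on which `W_q` acts
  by a sign `ε`: `ι' = ι + ε W_q ∘ ι`.
Prefix `twf_w_`.
-/
import Mathlib
import Fermat.Agent.S44.WJ.Basic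
import Fermat.Agent.S44.WJ.Hecke
import Fermat.Agent.S44.Seams

set_option autoImplicit false
set_option linter.unusedSectionVars false
set_option linter.style.haveILetI false
set_option synthInstance.maxHeartbeats 400000
set_option maxHeartbeats 1000000

noncomputable section

namespace Fermat.Agent.TW

open WeierstrassCurve WeierstrassCurve.Affine WeierstrassCurve.Affine.Point
open ModularCurve AlgebraicCurve Fermat.Agent.S24 Fermat.Agent.JT3 Fermat.Agent.S35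
  Fermat.Agent.SS Fermat.Agent.S44

section WJ

variable (M q : ℕ) [NeZero M] [NeZero q] (hq : q.Prime) (hqM : ¬ q ∣ M) (m : ℕ)

/-- **`f` represents `z` (exponent `m`) ⟹ `W̄ f` represents `W_q z`.** -/
theorem twf_w_rep_WJ {z : JZero (M * q)} {f : Fbar (M * q)} (h : s44f_Rep (M * q) m z f) :
    s44f_Rep (M * q) m (s44w_WJ M q hq hqM z) (ssm_al_Wbar M q hq hqM f) := by
  have h1 := s44w_rep_push m (ssm_al_Wbar M q hq hqM) (s44w_integral M q hq hqM)
    (s44w_finiteAlong M q hq hqM) (s44w_normFormulaAlong M q hq hqM) h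
  rw [s44w_normAlong_Wbar] at h1
  exact h1

/-- **`W_q ∘ W_q = id` on `J₀(M q)[m]`.** -/
theorem twf_w_WJ_WJ (hm : m ≠ 0) (z : JZero (M * q)) (hz : m • z = 0) :
    s44w_WJ M q hq hqM (s44w_WJ M q hq hqM z) = z := by
  obtain ⟨f, hf⟩ := s44f_rep_exists (M * q) z hz
  have h1 := twf_w_rep_WJ M q hq hqM m (twf_w_rep_WJ M q hq hqM m hf)
  rw [s44dqn_Wbar_Wbar] at h1
  exact s44w_rep_inj m hm h1 hf

/-- `W_q` preserves `J₀(M q)[m]`. -/
theorem twf_w_WJ_tors (z : JZero (M * q)) (hz : m • z = 0) : m • s44w_WJ M q hq hqM z = 0 := by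
  rw [← map_nsmul, hz, _root_.map_zero]

/-- **`α_* ∘ W_q = β_*` on `J₀(M q)[m]`.** -/
theorem twf_w_as_WJ (hm : m ≠ 0) (z : JZero (M * q)) (hz : m • z = 0) :
    s35p_P1J M q (s44w_WJ M q hq hqM z) = s35p_P2J M q z := by
  obtain ⟨f, hf⟩ := s44f_rep_exists (M * q) z hz
  have h1 := s44w_rep_push m (heckeAlphaBar Kbar M q) (hib_alphaIntegral M q)
    (hib_finiteAlong_alpha M q) (hib_normFormulaAlong_alpha M q) (twf_w_rep_WJ M q hq hqM m hf)
  have h2 := s44w_rep_push m (heckeBetaBar Kbar M q) (hib_betaIntegral M q)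
    (hib_finiteAlong_beta M q) (hib_normFormulaAlong_beta M q) hf
  rw [s44dqn_norm_Wbar] at h1
  exact s44w_rep_inj m hm h1 h2

/-- **`β_* ∘ W_q = α_*` on `J₀(M q)[m]`.** -/
theorem twf_w_bs_WJ (hm : m ≠ 0) (z : JZero (M * q)) (hz : m • z = 0) :
    s35p_P2J M q (s44w_WJ M q hq hqM z) = s35p_P1J M q z := by
  have h := twf_w_as_WJ M q hq hqM m hm (s44w_WJ M q hq hqM z) (twf_w_WJ_tors M q hq hqM m z hz)
  rw [twf_w_WJ_WJ M q hq hqM m hm z hz] at h
  exact h.symm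

end WJ

section Abstract

variable {J : Type*} [AddCommGroup J]

/-- `w (x + ε w x) = ε (x + ε w x)` for an additive `w` with `w (w x) = x` and a sign `ε`. -/
theorem twf_w_eigen_aux (w : J →+ J) (x : J) (hx : w (w x) = x) (ε : ℤ) (hε : ε * ε = 1) :
    w (x + ε • w x) = ε • (x + ε • w x) := by
  rw [map_add, map_zsmul, hx, smul_add, smul_smul, hε, one_smul, add_comm]

/-- `x + y = 0`, `x - y = 0`, `p x = 0` with `p` odd ⟹ `x = 0`. -/
theorem twf_w_zero_aux (x y : J) (p : ℕ) (hp : Nat.Coprime 2 p) (h1 : x + y = 0)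
    (h2 : x + -y = 0) (hpx : p • x = 0) : x = 0 := by
  have h2x : (2 : ℕ) • x = 0 := by
    rw [two_nsmul]
    calc x + x = (x + y) + (x + -y) := by abel
      _ = 0 := by rw [h1, h2, add_zero]
  have hcop : IsCoprime (2 : ℤ) (p : ℤ) := by
    have := Nat.isCoprime_iff_coprime.2 hp
    simpa using this
  obtain ⟨a, b, hab⟩ := hcop
  calc x = (1 : ℤ) • x := (one_smul _ _).symm
    _ = (a * 2 + b * p) • x := by rw [hab]
    _ = a • ((2 : ℕ) • x) + b • (p • x) := by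
      rw [add_smul, mul_smul, mul_smul, Nat.cast_smul_eq_nsmul, ← Nat.cast_smul_eq_nsmul ℤ 2 x]
      rfl
    _ = 0 := by rw [h2x, hpx, smul_zero, smul_zero, add_zero]

/-- a `T`-eigenvector `x` and an additive `w` commuting with `T` at `x`: `x + ε w x` is again a
`T`-eigenvector. -/
theorem twf_w_hecke_aux (T w : J →+ J) (x : J) (a ε : ℤ) (hT : T x = a • x)
    (hcomm : w (T x) = T (w x)) : T (x + ε • w x) = a • (x + ε • w x) := by
  rw [map_add, map_zsmul, ← hcomm, hT, map_zsmul, smul_add, smul_comm ε a]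

end Abstract

section Copy

variable (P : FreyPackage)

/-- a nonzero `G_ℚ`-equivariant additive map out of the irreducible `E[p]` is injective. -/
theorem twf_w_inj_of_ne_zero {J : Type*} [AddCommGroup J] [DistribMulAction s44_G J]
    (hirr : GaloisRepIsIrreducible (K := AlgebraicClosure ℚ) ℚ P.freyCurve P.p)
    (g : s44_Tors P →+ J) (hg : ∀ (σ : s44_G) (x : s44_Tors P), g (σ • x) = σ • g x)
    (hne : ∃ y, g y ≠ 0) : Function.Injective g := by
  set Nk : Submodule (ZMod P.p) (s44_Tors P) := AddSubgroup.toZModSubmodule P.p g.ker with hNk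
  have hmem : ∀ x, x ∈ Nk ↔ g x = 0 := fun x => by
    rw [hNk, AddSubgroup.mem_toZModSubmodule, AddMonoidHom.mem_ker]
  have hst : IsGaloisStable ℚ Nk := by
    intro σ x hx
    rw [hmem] at hx ⊢
    rw [hg, hx, smul_zero]
  rcases hirr.2 Nk hst with h | h
  · rw [injective_iff_map_eq_zero]
    intro x hx
    have : x ∈ Nk := (hmem x).2 hx
    rw [h, Submodule.mem_bot] at this
    exact this
  · obtain ⟨y, hy⟩ := hne
    exact absurd ((hmem y).1 (h ▸ Submodule.mem_top)) hy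

variable (M q : ℕ) [NeZero M] [NeZero q] [NeZero (M * q)] (hq : q.Prime) (hqM : ¬ q ∣ M)

/-- one candidate `ι + ε W_q ∘ ι`, if it is not zero. -/
theorem twf_w_copy_aux
    (hirr : GaloisRepIsIrreducible (K := AlgebraicClosure ℚ) ℚ P.freyCurve P.p)
    (W : WeierstrassCurve ℤ) (ι : s44_Tors P →+ JZero (M * q)) (hι : s44_IsCopy P (M * q) W ι)
    (ε : ℤ) (hεε : ε * ε = 1)
    (hne : ∃ y, ι y + ε • s44w_WJ M q hq hqM (ι y) ≠ 0) :
    ∃ ι' : s44_Tors P →+ JZero (M * q), s44_IsCopy P (M * q) W ι' ∧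
      (∀ y, ι' y = ι y + ε • s44w_WJ M q hq hqM (ι y)) ∧
      (∀ y, s44w_WJ M q hq hqM (ι' y) = ε • ι' y) := by
  have hp : ∀ y : s44_Tors P, P.p • ι y = 0 := fun y => by
    rw [← map_nsmul, s44_tors_smul, _root_.map_zero]
  have hWW : ∀ y, s44w_WJ M q hq hqM (s44w_WJ M q hq hqM (ι y)) = ι y := fun y =>
    twf_w_WJ_WJ M q hq hqM P.p P.hp0 (ι y) (hp y)
  refine ⟨ι + ε • (s44w_WJ M q hq hqM).comp ι, ?_, fun y => rfl, ?_⟩
  · have hval : ∀ y, (ι + ε • (s44w_WJ M q hq hqM).comp ι) y =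
        ι y + ε • s44w_WJ M q hq hqM (ι y) := fun y => rfl
    have hequiv : ∀ (σ : s44_G) (x : s44_Tors P),
        (ι + ε • (s44w_WJ M q hq hqM).comp ι) (σ • x) =
          σ • (ι + ε • (s44w_WJ M q hq hqM).comp ι) x := by
      intro σ x
      rw [hval, hval, hι.equiv, s44w_WJ_smul, smul_add, smul_comm σ ε]
    refine ⟨hι.model, ?_, hequiv, ?_⟩
    · refine twf_w_inj_of_ne_zero P hirr _ hequiv ?_
      obtain ⟨y, hy⟩ := hne
      exact ⟨y, by rw [hval]; exact hy⟩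
    · intro ℓ hg hℓN hℓp x
      haveI : NeZero (ℓ : ℕ) := ⟨ℓ.2.ne_zero⟩
      have hcomm : s44w_WJ M q hq hqM (heckeOperatorBar (M * q) ℓ (ι x)) =
          heckeOperatorBar (M * q) ℓ (s44w_WJ M q hq hqM (ι x)) :=
        s44w_WJ_hecke M q (ℓ : ℕ) hq hqM ℓ.2 hℓN (ι x) P.p P.hp0 (hp x)
      rw [hval]
      exact twf_w_hecke_aux (heckeOperatorBar (M * q) ℓ) (s44w_WJ M q hq hqM) (ι x) _ ε
        (hι.eigen ℓ hg hℓN hℓp x) hcomm
  · intro y
    exact twf_w_eigen_aux (s44w_WJ M q hq hqM) (ι y) (hWW y) ε hεε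

/-- **The `W_q`-eigen copy.** -/
theorem twf_w_copy
    (hirr : GaloisRepIsIrreducible (K := AlgebraicClosure ℚ) ℚ P.freyCurve P.p)
    (W : WeierstrassCurve ℤ) (ι : s44_Tors P →+ JZero (M * q)) (hι : s44_IsCopy P (M * q) W ι) :
    ∃ (ε : ℤ) (ι' : s44_Tors P →+ JZero (M * q)), (ε = 1 ∨ ε = -1) ∧
      s44_IsCopy P (M * q) W ι' ∧
      (∀ y, ι' y = ι y + ε • s44w_WJ M q hq hqM (ι y)) ∧
      (∀ y, s44w_WJ M q hq hqM (ι' y) = ε • ι' y) := by
  have hp : ∀ y : s44_Tors P, P.p • ι y = 0 := fun y => by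
    rw [← map_nsmul, s44_tors_smul, _root_.map_zero]
  by_cases h1 : ∃ y, ι y + (1 : ℤ) • s44w_WJ M q hq hqM (ι y) ≠ 0
  · obtain ⟨ι', h⟩ := twf_w_copy_aux P M q hq hqM hirr W ι hι 1 (by norm_num) h1
    exact ⟨1, ι', Or.inl rfl, h⟩
  by_cases h2 : ∃ y, ι y + (-1 : ℤ) • s44w_WJ M q hq hqM (ι y) ≠ 0
  · obtain ⟨ι', h⟩ := twf_w_copy_aux P M q hq hqM hirr W ι hι (-1) (by norm_num) h2
    exact ⟨-1, ι', Or.inr rfl, h⟩
  exfalso
  push Not at h1 h2
  obtain ⟨x, y, hxy⟩ := hirr.1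
  have hodd : Nat.Coprime 2 P.p := by
    rw [Nat.coprime_comm]
    exact (Nat.Prime.coprime_iff_not_dvd P.pp).2 (fun h => by
      have h5 := P.hp5
      have := Nat.le_of_dvd (by norm_num) h
      omega)
  have hzero : ∀ y, ι y = 0 := by
    intro y
    have e1 := h1 y
    have e2 := h2 y
    rw [one_smul] at e1
    rw [neg_one_smul] at e2
    exact twf_w_zero_aux (ι y) _ P.p hodd e1 e2 (hp y)
  exact hxy (hι.inj (by rw [hzero x, hzero y]))

end Copy

end Fermat.Agent.TW
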