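/-
Project ONE MACHINE (S43), block [F] EASY, cell [F-out] EXIT, abstract part (helper15).
Mathlib only.  Prefix `twfx_`.

`R` a commutative ring, finite as a `ℤ`-module, acting FAITHFULLY (`act : R →+* End_ℤ B` injective) on
a finitely generated `ℤ`-module `B`; `θ : R →+* k` a ring homomorphism to a field of characteristic `p`.

* `twfx_theta_eq_zero` : `t B ⊆ p B ⟹ θ t = 0` (Cayley–Hamilton with coefficients in `(p)`);
* `twfx_exists_eigen`  : there is `x ∈ B ∖ p B` with `t x ∈ p B` for every `t ∈ ker θ`
  (`ker θ` is a minimal prime over the annihilator of `B / p B`, hence an associated prime).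
-/
import Mathlib

set_option autoImplicit false
set_option linter.style.haveILetI false

namespace Fermat.Agent.TW

open Polynomial

section

variable {R : Type*} [CommRing R] {B : Type*} [AddCommGroup B] [Module.Finite ℤ B]
  {k : Type*} [Field k] {p : ℕ} [CharP k p]

/-- an endomorphism coming from `R` which maps `B` into `p B` is killed by `θ`. -/
theorem twfx_theta_eq_zero (act : R →+* Module.End ℤ B) (hact : Function.Injective act)
    (θ : R →+* k) (t : R) (ht : ∀ x : B, ∃ y : B, act t x = (p : ℤ) • y) : θ t = 0 := by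
  classical
  have hrange : LinearMap.range (act t) ≤ (Ideal.span {(p : ℤ)}) • (⊤ : Submodule ℤ B) := by
    rintro _ ⟨x, rfl⟩
    obtain ⟨y, hy⟩ := ht x
    rw [hy]
    exact Submodule.smul_mem_smul (Ideal.subset_span rfl) Submodule.mem_top
  obtain ⟨P, hPm, -, hPc, hP0⟩ :=
    LinearMap.exists_monic_and_natDegree_eq_and_coeff_mem_pow_and_aeval_eq_zero ℤ (act t)
      (Ideal.span {(p : ℤ)}) hrange
  -- `P(t) = 0` in `R`
  have h1 : aeval t P = 0 := by
    apply hact
    rw [map_zero]
    have : act (aeval t P) = aeval (act t) P := by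
      have := Polynomial.aeval_algHom_apply (act.toIntAlgHom) t P
      exact this.symm ▸ rfl
    rw [this, hP0]
  -- apply `θ`
  have h2 : aeval (θ t) P = 0 := by
    have := Polynomial.aeval_algHom_apply (θ.toIntAlgHom) t P
    have h3 : θ.toIntAlgHom (aeval t P) = 0 := by rw [h1, map_zero]
    rw [← this] at h3
    exact h3
  -- all lower coefficients vanish in `k`
  have hpk : ((p : ℤ) : k) = 0 := by
    rw [Int.cast_natCast]; exact CharP.cast_eq_zero k p
  have hcoef : ∀ i, i < P.natDegree → ((P.coeff i : ℤ) : k) = 0 := by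
    intro i hi
    have hmem := hPc i
    have hle : Ideal.span {(p : ℤ)} ^ (P.natDegree - i) ≤ Ideal.span {(p : ℤ)} := by
      have h1' : 1 ≤ P.natDegree - i := by omega
      calc Ideal.span {(p : ℤ)} ^ (P.natDegree - i) ≤ Ideal.span {(p : ℤ)} ^ 1 :=
            Ideal.pow_le_pow_right h1'
        _ = Ideal.span {(p : ℤ)} := pow_one _
    obtain ⟨c, hc⟩ := Ideal.mem_span_singleton.mp (hle hmem)
    rw [hc, Int.cast_mul, hpk, zero_mul]
  have h4 : aeval (θ t) P = (θ t) ^ P.natDegree := by
    rw [Polynomial.aeval_eq_sum_range, Finset.sum_range_succ]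
    have hz : ∑ i ∈ Finset.range P.natDegree, P.coeff i • (θ t) ^ i = 0 := by
      apply Finset.sum_eq_zero
      intro i hi
      rw [zsmul_eq_mul, hcoef i (Finset.mem_range.mp hi), zero_mul]
    rw [hz, zero_add, hPm.coeff_natDegree, one_smul]
  rw [h4] at h2
  by_cases hn : P.natDegree = 0
  · rw [hn, pow_zero] at h2
    exact absurd h2 one_ne_zero
  · exact (pow_eq_zero_iff hn).mp h2

/-- **a mod-`p` eigenvector for `ker θ`.** -/
theorem twfx_exists_eigen [Module.Finite ℤ R] (hp : p.Prime)
    (act : R →+* Module.End ℤ B) (hact : Function.Injective act) (θ : R →+* k) :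
    ∃ x : B, (∀ y : B, x ≠ (p : ℤ) • y) ∧
      ∀ t : R, θ t = 0 → ∃ y : B, act t x = (p : ℤ) • y := by
  classical
  haveI : IsNoetherianRing R :=
    isNoetherian_of_tower ℤ (isNoetherian_of_isNoetherianRing_of_finite ℤ R)
  letI : Module R B := Module.compHom B act
  have hsmul : ∀ (t : R) (x : B), t • x = act t x := fun _ _ => rfl
  haveI : IsScalarTower ℤ R B := ⟨fun n t x => by
    rw [hsmul, hsmul, map_zsmul, LinearMap.smul_apply]⟩
  haveI : Module.Finite R B := Module.Finite.of_restrictScalars_finite ℤ R B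
  -- the submodule `p B`
  let Npt : Submodule R B :=
    { carrier := {x | ∃ y : B, x = (p : ℤ) • y}
      add_mem' := by
        rintro _ _ ⟨y, rfl⟩ ⟨y', rfl⟩
        exact ⟨y + y', (smul_add _ _ _).symm⟩
      zero_mem' := ⟨0, (smul_zero _).symm⟩
      smul_mem' := by
        rintro t _ ⟨y, rfl⟩
        exact ⟨t • y, by rw [hsmul, hsmul, map_zsmul]⟩ }
  have hNpt : ∀ x : B, x ∈ Npt ↔ ∃ y : B, x = (p : ℤ) • y := fun _ => Iff.rfl
  let V := B ⧸ Npt
  -- the annihilator of `V` is killed by `θ`
  have hann : Module.annihilator R V ≤ RingHom.ker θ := by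
    intro t ht
    rw [RingHom.mem_ker]
    refine twfx_theta_eq_zero act hact θ t fun x => ?_
    have h1 : t • (Submodule.Quotient.mk x : V) = 0 := Module.mem_annihilator.mp ht _
    rw [← Submodule.Quotient.mk_smul, Submodule.Quotient.mk_eq_zero] at h1
    exact (hNpt _).mp h1
  have hpann : ((p : ℤ) : R) ∈ Module.annihilator R V := by
    rw [Module.mem_annihilator]
    intro v
    induction v using Submodule.Quotient.induction_on with
    | H x =>
      rw [← Submodule.Quotient.mk_smul, Submodule.Quotient.mk_eq_zero]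
      refine (hNpt _).mpr ⟨x, ?_⟩
      rw [hsmul, map_intCast]
      rfl
  haveI hker : (RingHom.ker θ).IsPrime := RingHom.ker_isPrime θ
  -- `ker θ` is minimal over the annihilator
  have hmin : RingHom.ker θ ∈ (Module.annihilator R V).minimalPrimes := by
    refine ⟨⟨hker, hann⟩, ?_⟩
    rintro 𝔮 ⟨h𝔮, hann𝔮⟩ h𝔮le
    haveI := h𝔮
    haveI : Algebra.IsIntegral ℤ R := Algebra.IsIntegral.of_finite ℤ R
    have hcomap : (𝔮.comap (algebraMap ℤ R)).IsMaximal := by
      haveI : (𝔮.comap (algebraMap ℤ R)).IsPrime := Ideal.comap_isPrime _ _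
      refine Ideal.IsPrime.isMaximal inferInstance ?_
      intro hbot
      have hmem : (p : ℤ) ∈ 𝔮.comap (algebraMap ℤ R) := by
        rw [Ideal.mem_comap, eq_intCast]
        exact hann𝔮 hpann
      rw [hbot, Ideal.mem_bot] at hmem
      exact hp.ne_zero (by exact_mod_cast hmem)
    have h𝔮max : 𝔮.IsMaximal := Ideal.isMaximal_of_isIntegral_of_isMaximal_comap 𝔮 hcomap
    exact (h𝔮max.eq_of_le hker.ne_top h𝔮le).ge
  have hass : RingHom.ker θ ∈ associatedPrimes R V :=
    Module.associatedPrimes.minimalPrimes_annihilator_subset_associatedPrimes R V hmin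
  obtain ⟨-, v, hv⟩ := (Submodule.isAssociatedPrime_iff).mp hass
  induction v using Submodule.Quotient.induction_on with
  | H x =>
    refine ⟨x, ?_, ?_⟩
    · intro y hy
      -- then `mk x = 0`, so the colon ideal is `⊤`
      have hx0 : (Submodule.Quotient.mk x : V) = 0 := by
        rw [Submodule.Quotient.mk_eq_zero]
        exact (hNpt _).mpr ⟨y, hy⟩
      have h1 : (1 : R) ∈ RingHom.ker θ := by
        rw [hv, Submodule.mem_colon_singleton, hx0, smul_zero]
        exact Submodule.zero_mem _
      exact hker.ne_top ((Ideal.eq_top_iff_one _).mpr h1)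
    · intro t ht
      have h1 : t ∈ RingHom.ker θ := ht
      rw [hv, Submodule.mem_colon_singleton, Submodule.mem_bot,
        ← Submodule.Quotient.mk_smul, Submodule.Quotient.mk_eq_zero] at h1
      exact (hNpt _).mp h1

end

end Fermat.Agent.TW
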