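/-
Project ONE MACHINE (S43), block [F] EASY, cell [F-out] EXIT (helper15).  Prefix `twfx_`.

* `twfx_lift` (Frey-free Deligne–Serre lifting against the Prelude's Hecke algebra): a ring
  homomorphism `θ : 𝕋_S(M) → k`, `k` a field of characteristic `p`, with `θ(T_ℓ) = a_ℓ mod p`
  (`a_ℓ ∈ ℤ`) for all primes `ℓ ∤ M`, `ℓ ∉ S`, gives a normalised eigenform `g ∈ S₂(Γ₀(M))` and a
  maximal ideal `𝔪' ∋ p` of `ℤ̄` with `a_ℓ(g) ≡ a_ℓ mod 𝔪'` for those `ℓ`.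
  Route: the lattice `B = intLattice M 2` (faithful by S23, `𝕋` finite by S22),
  `twfx_exists_eigen` (S43/…/ExitAlg), `lrlf_main` (LR/Rib/Lift), `lreig_main_char` (LR/EIG).
* `twfx_exit : s43t_Exit_stmt` — the seam [F-out] of `Fermat/Agent/S43/Top/HardSeams.lean`.
-/
import Mathlib
import Fermat.Agent.S43.Top.HardSeams
import Fermat.Agent.S22
import Fermat.Agent.S23
import Fermat.Agent.LR.Rib.Lift
import Fermat.Agent.LR.EIG.Main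
import Fermat.Prelude.Def_CuspForm_HeckeLocal
import Fermat.Agent.TW.Easy.ExitAlg

set_option autoImplicit false
set_option linter.unusedSectionVars false
set_option linter.style.haveILetI false

noncomputable section

open CongruenceSubgroup CuspForm ModularFormClass
open Fermat.Agent.LR

namespace Fermat.Agent.TW

/-- **Deligne–Serre lifting for the Prelude's Hecke algebra.** -/
theorem twfx_lift {p M : ℕ} [NeZero M] (hp : p.Prime) (S : Set ℕ) {k : Type*} [Field k]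
    [CharP k p] (θ : heckeAlgebra M 2 S →+* k) (a : ℕ → ℤ)
    (hθ : ∀ (ℓ : ℕ) (hℓ : ℓ.Prime) (hℓM : ¬ ℓ ∣ M) (hℓS : ℓ ∉ S),
      θ (heckeAlgebra.T hℓ hℓM hℓS) = ((a ℓ : ℤ) : k)) :
    ∃ (g : CuspForm (Gamma0 M) 2) (𝔪' : Ideal (integralClosure ℤ ℂ)),
      g.IsNormalizedEigenform ∧ 𝔪'.IsMaximal ∧ ((p : ℕ) : integralClosure ℤ ℂ) ∈ 𝔪' ∧
      ∀ ℓ : ℕ, ℓ.Prime → ¬ ℓ ∣ M → ℓ ∉ S →
        ∃ b : integralClosure ℤ ℂ, (b : ℂ) = qCoeff g ℓ ∧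
          b - ((a ℓ : ℤ) : integralClosure ℤ ℂ) ∈ 𝔪' := by
  classical
  haveI : Module.Finite ℤ (heckeAlgebra M 2 S) := Fermat.Agent.S22.result M 2 S
  haveI : Module.Finite ℤ ↥(intLattice M 2) := intLattice.moduleFinite M
  haveI : FiniteDimensional ℂ (CuspForm (Gamma0 M) 2) :=
    Fermat.Agent.S23.finiteDimensional_cuspForm M 2
  have hact : Function.Injective (latticeActionHom M S) :=
    latticeActionHom_injective M S (Fermat.Agent.S23.result M)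
  obtain ⟨x, hx, hxeig⟩ := twfx_exists_eigen (p := p) hp (latticeActionHom M S) hact θ
  let I : Type := {ℓ : ℕ // ℓ.Prime ∧ ¬ ℓ ∣ M ∧ ℓ ∉ S}
  let aI : I → ℤ := fun i => a i.1
  let tB : I → Module.End ℤ ↥(intLattice M 2) := fun i =>
    latticeActionHom M S (heckeAlgebra.T i.2.1 i.2.2.1 i.2.2.2)
  let tW : I → Module.End ℂ (CuspForm (Gamma0 M) 2) := fun i => heckeTLin 2 i.2.1 i.2.2.1
  let j : ↥(intLattice M 2) →+ CuspForm (Gamma0 M) 2 := (intLattice M 2).subtype.toAddMonoidHom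
  obtain ⟨g₀, b, 𝔪', -, hg₀, hg₀eig, hmax, hpm, hb⟩ := lrlf_main (I := I) hp aI
    (B := ↥(intLattice M 2)) tB (W := CuspForm (Gamma0 M) 2) tW
    (fun l l' => heckeTLin_comm 2 l.2.1 l.2.2.1 l'.2.1 l'.2.2.1)
    j Subtype.val_injective (fun l y => rfl) x hx
    (by
      intro l
      have h0 : θ (heckeAlgebra.T l.2.1 l.2.2.1 l.2.2.2 - ((a l.1 : ℤ) : heckeAlgebra M 2 S)) = 0 := by
        rw [map_sub, hθ, map_intCast, sub_self]
      obtain ⟨y, hy⟩ := hxeig _ h0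
      refine ⟨y, ?_⟩
      rw [← hy, map_sub, map_intCast, LinearMap.sub_apply]
      congr 1)
  -- the normalised eigenform
  let θ' : ℕ → ℂ := fun ℓ =>
    if h : ℓ.Prime ∧ ¬ ℓ ∣ M ∧ ℓ ∉ S then ((b ⟨ℓ, h⟩ : integralClosure ℤ ℂ) : ℂ) else 0
  have hθ' : ∀ i : I, θ' i.1 = ((b i : integralClosure ℤ ℂ) : ℂ) := fun i => dif_pos i.2
  have hne : lreig_charSub (⊤ : Submodule ℂ (CuspForm (Gamma0 M) 2)) S θ' ≠ ⊥ := by
    intro hbot
    apply hg₀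
    have hmem : g₀ ∈ lreig_charSub (⊤ : Submodule ℂ (CuspForm (Gamma0 M) 2)) S θ' := by
      rw [lreig_mem_charSub]
      refine ⟨Submodule.mem_top, fun ℓ hℓ hℓM hℓS => ?_⟩
      rw [hθ' ⟨ℓ, hℓ, hℓM, hℓS⟩]
      exact hg₀eig ⟨ℓ, hℓ, hℓM, hℓS⟩
    rw [hbot] at hmem
    exact (Submodule.mem_bot ℂ).mp hmem
  obtain ⟨g, -, hg, hgcoef, -, -⟩ := lreig_main_char (⊤ : Submodule ℂ (CuspForm (Gamma0 M) 2)) S θ'
    hne (fun _ _ _ _ _ => Submodule.mem_top) (fun _ _ _ _ _ => Submodule.mem_top)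
  refine ⟨g, 𝔪', hg, hmax, hpm, fun ℓ hℓ hℓM hℓS => ?_⟩
  refine ⟨b ⟨ℓ, hℓ, hℓM, hℓS⟩, ?_, hb ⟨ℓ, hℓ, hℓM, hℓS⟩⟩
  rw [hgcoef ℓ hℓ hℓM hℓS]
  exact (hθ' ⟨ℓ, hℓ, hℓM, hℓS⟩).symm

open Fermat.Agent.S43 in
/-- **[F-out] EXIT.** -/
theorem twfx_exit : s43t_Exit_stmt := by
  intro P _ M _ W S hW hS k _ _ θ hθ
  haveI : CharP k P.p :=
    charP_of_injective_algebraMap (algebraMap (ZMod P.p) k).injective P.p
  obtain ⟨g, 𝔪', hg, hmax, hpm, hcong⟩ := twfx_lift P.pp (↑S : Set ℕ) θ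
    (fun ℓ => W.apOfModel ℓ)
    (fun ℓ hℓ hℓM hℓS => by
      rw [hθ ℓ hℓ hℓM hℓS, map_intCast])
  refine ⟨g, W, 𝔪', hg, hW, hmax, hpm, fun ℓ hℓ hgood hℓM hℓp => ?_⟩
  refine hcong ℓ hℓ hℓM ?_
  intro hℓS
  exact hS.2.1 ℓ (by exact_mod_cast hℓS) hℓp hgood

end Fermat.Agent.TW
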