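/-
PROJECT 'ONE MACHINE' (S43), block [F] Entry, Frey fact (helper16).  Prefix `twf_r2_`.

**The `p`-torsion of the Frey curve is RAMIFIED at `2`** (`twf_r2_main`):
`¬ P.GaloisRepUnramifiedAt 2`, and the pointwise form `twf_r2_exists` (for EVERY place `A ∣ 2`
there are `σ ∈ I_A` and a `p`-torsion point `T` with `σ • T ≠ T`).

Proof (no Tate curve).
* (B) `twf_r2_exists_not_E0` (any `W / ℤ`, `ℓ ∥`-multiplicative, `p ≠ ℓ` odd): some `T ∈ E[p]` is
  NOT in the zero component at `A ∣ ℓ`.  Counting: reduction is injective on `E[p] ∩ E⁰`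
  ([RED-HOM] of S58) with values in the `p`-torsion of the nodal group `κˣ` (`s58m_phi`), which has
  at most `p` elements, while `#E[p] = p²`.
* (N) for the integral Frey curve the node mod `2` is `(0, 0)`: a point outside `E⁰` has `v(x) < 1`.
* (A) an inertia-fixed point has `x ∈ Q̄^{I_A}`, where `2` stays a uniformiser (`ffi_lvi_unit`), so
  `v(x) = v(2) ^ j`; the theta-function computation `tw_E0_of_rational` (S13: `v₂(a₄) = 4 + p·v₂(b)`
  is prime to `p`) then puts `T` in `E⁰`.  Contradiction.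
-/
import Mathlib
import Fermat.Agent.MZ.B.PmOne
import Fermat.Agent.MZ.J.Frey
import Fermat.Agent.S13.Local.AtTwo
import Fermat.Agent.FF.Inst.LevelInertia

set_option autoImplicit false
set_option linter.unusedSectionVars false
set_option linter.unusedVariables false

namespace Fermat.Agent.TW

open WeierstrassCurve WeierstrassCurve.Affine IsLocalRing
open Fermat.Agent.S58 Fermat.Agent.S05 Fermat.Agent.S13 Fermat.Agent.MZ Fermat.Agent.FF

/-! ### the nodal parametrisation is onto -/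

section Surj

variable {k : Type*} [Field k] [DecidableEq k] {W : Affine k} {x0 y0 α β : k}
  (H : s58m_Nodal W x0 y0 α β)

theorem twf_r2_phi_surj (R : W.Point) : ∃ t : kˣ, s58m_phi H t = R := by
  rcases R with _ | ⟨x, y, h⟩
  · exact ⟨1, s58m_phi_one H⟩
  · have hx_ne : x ≠ x0 := mzb_pm_ne_node _ H h
    obtain ⟨hD, t, ht1, htrel, hpx, hpy⟩ := mzb_pm_param H h.1 hx_ne
    refine ⟨t, ?_⟩
    rw [s58m_phi_of_ne H ht1]
    exact s58m_some_congr _ _ hpx hpy

include H in
/-- the `n`-torsion of the nonsingular points of a nodal cubic has at most `n` elements. -/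
theorem twf_r2_card_le {n : ℕ} (hn : 0 < n) {ι : Type*} (f : ι → W.Point)
    (hf : Function.Injective f) (hn0 : ∀ i, n • f i = 0) [Finite ι] : Nat.card ι ≤ n := by
  classical
  have : NeZero n := ⟨hn.ne'⟩
  choose g hg using fun i => twf_r2_phi_surj H (f i)
  have hgmem : ∀ i, g i ∈ rootsOfUnity n k := fun i => by
    rw [mem_rootsOfUnity, ← s58m_phi_eq_zero_iff H, s58m_phi_pow, hg]
    exact hn0 i
  let g' : ι → rootsOfUnity n k := fun i => ⟨g i, hgmem i⟩
  have hinj : Function.Injective g' := by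
    intro i j hij
    apply hf
    have : g i = g j := congrArg Subtype.val hij
    rw [← hg i, ← hg j, this]
  have h1 : Nat.card ι ≤ Nat.card (rootsOfUnity n k) := Nat.card_le_card_of_injective g' hinj
  have h2 : Nat.card (rootsOfUnity n k) ≤ n := card_rootsOfUnity k n
  exact h1.trans h2

end Surj

/-! ### (B): a `p`-torsion point outside the zero component -/

section LemB

open WeierstrassCurve.Affine.Point

/-- **(B)** at a multiplicative prime `ℓ ≠ p` (`p` odd) some point of `E[p]` is NOT in the zero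
component at `A ∣ ℓ`. -/
theorem twf_r2_exists_not_E0 {p : ℕ} (hp : p.Prime) (hp2 : p ≠ 2) (W : WeierstrassCurve ℤ)
    (hΔ : W.Δ ≠ 0) {ℓ : ℕ} (hℓ : ℓ.Prime) (hℓp : ℓ ≠ p) (hℓΔ : (ℓ : ℤ) ∣ W.Δ)
    (hℓc₄ : ¬ (ℓ : ℤ) ∣ W.c₄) (A : ValuationSubring s58_Qb) (hA : A.LiesOverPrime ℓ) :
    ∃ T : s58_E W, p • T = 0 ∧ ¬ W.InZeroComponentAt A T := by
  classical
  by_contra hcon
  push Not at hcon
  have hfact : Fact ℓ.Prime := ⟨hℓ⟩
  have halg : IsAlgClosed (ResidueField A) := s58m_residue_isAlgClosed A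
  have hM := s58m_model W A
  -- `p` is a unit of `A`
  have hunit : A.valuation ((p : ℕ) : s58_Qb) = 1 := by
    have := (intVal_eq_one_iff A hA hℓ ((p : ℕ) : ℤ)).mpr
      (fun h => hℓp ((Nat.prime_dvd_prime_iff_eq hℓ hp).mp (by exact_mod_cast h)))
    rwa [Int.cast_natCast] at this
  -- the node, over `ZMod ℓ`
  set Wℓ : Affine (ZMod ℓ) := W.map (Int.castRingHom (ZMod ℓ)) with hWℓ
  have hΔℓ : Wℓ.Δ = 0 := by
    rw [hWℓ, WeierstrassCurve.map_Δ, eq_intCast]
    exact (CharP.intCast_eq_zero_iff (ZMod ℓ) ℓ _).mpr hℓΔ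
  have hc4ℓ : Wℓ.c₄ ≠ 0 := by
    rw [hWℓ, WeierstrassCurve.map_c₄, eq_intCast]
    exact fun h => hℓc₄ ((CharP.intCast_eq_zero_iff (ZMod ℓ) ℓ _).mp h)
  obtain ⟨x0, y0, hFx, hFy, hF, hB⟩ := s58m_singular_point Wℓ hΔℓ hc4ℓ
  have hchar : CharP (ResidueField A) ℓ := mzb_pm_charP hA hℓ
  set ι : ZMod ℓ →+* ResidueField A := ZMod.castHom (dvd_refl ℓ) (ResidueField A) with hι
  have hWk : s58m_Wk W A = Wℓ.map ι := by
    rw [s58m_Wk_eq, hWℓ]
    show _ = WeierstrassCurve.map (WeierstrassCurve.map W (Int.castRingHom (ZMod ℓ))) ι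
    rw [WeierstrassCurve.map_map]
    congr 1
    exact RingHom.ext_int _ _
  obtain ⟨hFx', hFy', hF', hB'⟩ := mzb_pm_map_singular ι Wℓ hFx hFy hF hB
  rw [← hWk] at hFx' hFy' hF' hB'
  obtain ⟨α, hα⟩ := IsAlgClosed.exists_root
    (Polynomial.C (1 : ResidueField A) * Polynomial.X ^ 2 +
      Polynomial.C (s58m_Wk W A).a₁ * Polynomial.X +
      Polynomial.C (-((s58m_Wk W A).a₂ + 3 * ι x0)))
    (by rw [Polynomial.degree_quadratic one_ne_zero]; norm_num)
  have hα' : α ^ 2 + (s58m_Wk W A).a₁ * α - ((s58m_Wk W A).a₂ + 3 * ι x0) = 0 := by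
    have := hα
    simp only [Polynomial.IsRoot.def, Polynomial.eval_add, Polynomial.eval_mul,
      Polynomial.eval_C, Polynomial.eval_pow, Polynomial.eval_X] at this
    linear_combination this
  have H := mzb_pm_nodal_of_singular (s58m_Wk W A) hFx' hFy' hF' hB' hα'
  -- the `p`-torsion
  have hΔ' : ((s58_WQ W)⁄s58_Qb).Δ ≠ 0 := by
    show ((W.map (Int.castRingHom ℚ)).map (algebraMap ℚ s58_Qb)).Δ ≠ 0
    rw [WeierstrassCurve.map_Δ, WeierstrassCurve.map_Δ]
    simpa using hΔ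
  have hcardT : Nat.card (Submodule.torsionBy ℤ (s58_E W) p) = p ^ 2 :=
    ld_natCard_torsionBy (W' := s58_WQ W) (K := s58_Qb) hΔ' (hp.odd_of_ne_two hp2)
  have hfinT : Finite (Submodule.torsionBy ℤ (s58_E W) p) := by
    apply Nat.finite_of_card_ne_zero
    rw [hcardT]
    exact pow_ne_zero _ hp.ne_zero
  have htors : ∀ Q : Submodule.torsionBy ℤ (s58_E W) p, p • (Q : s58_E W) = 0 := fun Q => by
    have := (Submodule.mem_torsionBy_iff _ _).mp Q.2
    rwa [natCast_zsmul] at this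
  have hmem : ∀ Q : Submodule.torsionBy ℤ (s58_E W) p, (Q : s58_E W) ∈ s58r_E0 hM :=
    fun Q => (s58m_inZeroComponentAt_iff _).mp (hcon _ (htors Q))
  let f : Submodule.torsionBy ℤ (s58_E W) p → (s58m_Wk W A).Point :=
    fun Q => s58r_red hM ⟨Q, hmem Q⟩
  have hinj : Function.Injective f := by
    intro Q Q' hQQ
    have h0 : s58r_red hM (⟨Q, hmem Q⟩ - ⟨Q', hmem Q'⟩) = 0 := by
      rw [map_sub]; exact sub_eq_zero.mpr hQQ
    have hP : p • (((⟨Q, hmem Q⟩ - ⟨Q', hmem Q'⟩ : s58r_E0 hM)) : s58_E W) = 0 := by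
      rw [AddSubgroup.coe_sub, smul_sub, htors Q, htors Q', sub_zero]
    have := s58r_red_injective_on_torsion hM hunit hP h0
    have h1 : ((Q : s58_E W)) - (Q' : s58_E W) = 0 := by
      have := congrArg Subtype.val this
      rwa [AddSubgroup.coe_sub] at this
    exact Subtype.ext (sub_eq_zero.mp h1)
  have hn0 : ∀ Q, p • f Q = 0 := fun Q => by
    show p • s58r_red hM ⟨Q, hmem Q⟩ = 0
    rw [← map_nsmul]
    have : p • (⟨Q, hmem Q⟩ : s58r_E0 hM) = 0 :=
      Subtype.ext (by rw [AddSubgroup.coe_nsmul]; exact htors Q)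
    rw [this, _root_.map_zero]
  have hle := twf_r2_card_le H hp.pos f hinj hn0
  rw [hcardT] at hle
  have : p * 2 ≤ p * p := Nat.mul_le_mul_left p hp.two_le
  nlinarith [hp.two_le]

end LemB

/-! ### (N): in residue characteristic `2` with `a₁ = 1`, `a₃ = 0`, unit `x` means `E⁰` -/

section Node

open WeierstrassCurve.Affine.Point

theorem twf_r2_mem_E0_of_unit {F : Type*} [Field F] [DecidableEq F] {A : ValuationSubring F}
    [DecidableEq (ResidueField A)] {W : Affine F} {Wk : Affine (ResidueField A)}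
    (hM : s58r_Model A W Wk) (h2 : A.valuation (2 : F) < 1) (ha1 : W.a₁ = 1) (ha3 : W.a₃ = 0)
    {x y : F} (h : W.Nonsingular x y) (hx : 1 ≤ A.valuation x) :
    (Point.some x y h : W.Point) ∈ s58r_E0 hM := by
  obtain ⟨WA, rfl, rfl⟩ := id hM
  by_cases hxA : x ∈ A
  · have hy : y ∈ A := s58r_y_mem A WA hxA h.1
    have he := s58r_equation_residue A WA (a := ⟨x, hxA⟩) (b := ⟨y, hy⟩) h.1
    have hx1 : A.valuation x = 1 := le_antisymm ((A.valuation_le_one_iff _).mpr hxA) hx
    have hxk : residue A ⟨x, hxA⟩ ≠ 0 := by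
      rw [Ne, residue_eq_zero_iff, A.valuation_lt_one_iff]
      show ¬ A.valuation x < 1
      rw [hx1]; exact lt_irrefl _
    have h2k : (2 : ResidueField A) = 0 := by
      have : residue A (2 : A) = 0 := by
        rw [residue_eq_zero_iff, A.valuation_lt_one_iff]
        exact h2
      rwa [map_ofNat] at this
    have ha1' : WA.a₁ = 1 := by
      apply Subtype.coe_injective
      have : (WA.map A.subtype).a₁ = 1 := ha1
      rw [WeierstrassCurve.map_a₁] at this
      exact this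
    have ha3' : WA.a₃ = 0 := by
      apply Subtype.coe_injective
      have : (WA.map A.subtype).a₃ = 0 := ha3
      rw [WeierstrassCurve.map_a₃] at this
      exact this
    have hn : (WA.map (residue A)).toAffine.Nonsingular (residue A ⟨x, hxA⟩)
        (residue A ⟨y, hy⟩) := by
      rw [nonsingular_iff]
      refine ⟨he, Or.inr ?_⟩
      rw [WeierstrassCurve.map_a₁, WeierstrassCurve.map_a₃, ha1', ha3', map_one,
        _root_.map_zero]
      intro hc
      apply hxk
      linear_combination hc - (residue A ⟨y, hy⟩) * h2k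
    exact ⟨_, s58r_RedTo.aff ⟨x, hxA⟩ ⟨y, hy⟩ h hn⟩
  · exact ⟨0, s58r_RedTo.inf h hxA⟩

end Node

/-! ### (A): inertia-fixed `p`-torsion of the Frey curve lies in `E⁰` at `2` -/

section StepA

open WeierstrassCurve.Affine.Point

local notation "Qbar" => AlgebraicClosure ℚ

/-- **(A)** an inertia-fixed `p`-torsion point of the Frey curve has `1 ≤ v(x)` at `A ∣ 2`. -/
theorem twf_r2_fixed_E0 (P : FreyPackage) (A : ValuationSubring Qbar) (hA : A.LiesOverPrime 2)
    {x y : Qbar} (h : (P.freyCurve⁄Qbar).Nonsingular x y)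
    (hT : P.p • (Point.some x y h : (P.freyCurve⁄Qbar).Point) = 0)
    (hfix : ∀ σ ∈ A.inertiaSubgroupIn ℚ,
      σ • (Point.some x y h : (P.freyCurve⁄Qbar).Point) = Point.some x y h) :
    1 ≤ A.valuation x := by
  have hfact : Fact (2 : ℕ).Prime := ⟨Nat.prime_two⟩
  have hxL : x ∈ ffi_L A := by
    rw [ffi_mem_L]
    intro σ hσ
    have := hfix σ hσ
    rw [Fermat.Agent.S05.smul_some σ h] at this
    exact (Point.some.inj this).1
  obtain ⟨τ, hτ⟩ := l2_exists_tau P (L := Qbar)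
  have H := frey2_twHyp P A hA hτ
  have hB : twB (P.freyCurve⁄Qbar) 0 0 = (P.freyCurve⁄Qbar).a₄ := by simp [twB]
  have h2lt := frey2_val_two_lt_one A hA
  have h2ne : A.valuation (2 : Qbar) ≠ 0 := (Valuation.ne_zero_iff _).mpr two_ne_zero
  have h2pos : 0 < A.valuation (2 : Qbar) := zero_lt_iff.mpr h2ne
  by_cases hx0 : x = 0
  · exfalso
    refine tw_not_T_of_odd H P.hp_odd h ?_ hT
    rw [sub_zero, hx0, _root_.map_zero]
    exact zero_le
  · obtain ⟨n, hn1, hn2⟩ := ffi_lvi_unit 2 A hA hxL hx0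
    rw [Nat.cast_ofNat] at hn1 hn2
    have hu1 : A.valuation (x * (2 : Qbar) ^ n) ≤ 1 := (A.valuation_le_one_iff _).mpr hn1
    have hu2 : A.valuation (x * (2 : Qbar) ^ n)⁻¹ ≤ 1 := (A.valuation_le_one_iff _).mpr hn2
    have hune : x * (2 : Qbar) ^ n ≠ 0 := mul_ne_zero hx0 (zpow_ne_zero _ two_ne_zero)
    have hvne : A.valuation (x * (2 : Qbar) ^ n) ≠ 0 := (Valuation.ne_zero_iff _).mpr hune
    have hu : A.valuation (x * (2 : Qbar) ^ n) = 1 := by
      refine le_antisymm hu1 ?_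
      rw [map_inv₀] at hu2
      exact (inv_le_one₀ (zero_lt_iff.mpr hvne)).mp hu2
    have hj : A.valuation (x - 0) = A.valuation (2 : Qbar) ^ (-n) := by
      rw [sub_zero]
      rw [map_mul, map_zpow₀] at hu
      rw [zpow_neg]
      exact eq_inv_of_mul_eq_one_left hu
    have hN : A.valuation (twB (P.freyCurve⁄Qbar) 0 0) = A.valuation (2 : Qbar) ^ (f2J P) := by
      rw [hB]; exact frey2_val_a₄ P A hA
    have hcop : Nat.Coprime P.p (2 * f2J P) := by
      rw [Nat.Prime.coprime_iff_not_dvd P.pp]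
      intro hdvd
      rcases (Nat.Prime.dvd_mul P.pp).mp hdvd with h2 | hJ
      · have := Nat.le_of_dvd (by norm_num) h2
        have := P.hp5
        omega
      · exact f2J_not_dvd P hJ
    have := tw_E0_of_rational H h2pos h2lt hN hcop h hT hj
    rwa [sub_zero] at this

end StepA

/-! ### the main theorem -/

section Main

open WeierstrassCurve.Affine.Point

local notation "Qbar" => AlgebraicClosure ℚ

/-- above every prime there is a valuation subring of `ℚ̄` (copy of `mzt_exists_place`). -/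
theorem twf_r2_exists_place (ℓ : ℕ) (hℓ : ℓ.Prime) :
    ∃ A : ValuationSubring Qbar, A.LiesOverPrime ℓ := by
  let Z : Subring Qbar := (algebraMap ℤ Qbar).range
  let l : Z := ⟨(ℓ : Qbar), ⟨(ℓ : ℤ), by simp⟩⟩
  have hne : Ideal.span ({l} : Set Z) ≠ ⊤ := by
    intro h
    rw [Ideal.span_singleton_eq_top] at h
    obtain ⟨⟨b, hb⟩, hbl⟩ := h.exists_right_inv
    obtain ⟨n, rfl⟩ := hb
    have h1 : ((ℓ : ℤ) * n : ℤ) = 1 := by
      have h2 : (algebraMap ℤ Qbar) ((ℓ : ℤ) * n) = (algebraMap ℤ Qbar) 1 := by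
        rw [map_mul, map_one]
        have := congrArg Subtype.val hbl
        simpa [l] using this
      exact (algebraMap ℤ Qbar).injective_int h2
    have h3 : (ℓ : ℤ) ∣ 1 := ⟨n, h1.symm⟩
    have h4 : ℓ ∣ 1 := by exact_mod_cast h3
    exact hℓ.one_lt.ne' (Nat.dvd_one.1 h4)
  obtain ⟨B, -, hB⟩ := Ideal.image_subset_nonunits_valuationSubring (Ideal.span ({l} : Set Z)) hne
  exact ⟨B, hB ⟨l, Ideal.subset_span rfl, rfl⟩⟩

/-- **the `p`-torsion of the Frey curve is ramified at `2`, pointwise form**: for EVERY place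
`A ∣ 2` of `ℚ̄` some `σ ∈ I_A` moves some `p`-torsion point. -/
theorem twf_r2_exists (P : FreyPackage) (A : ValuationSubring Qbar) (hA : A.LiesOverPrime 2) :
    ∃ σ ∈ A.inertiaSubgroupIn ℚ, ∃ T : (P.freyCurve⁄Qbar).Point, P.p • T = 0 ∧ σ • T ≠ T := by
  classical
  by_contra hcon
  push Not at hcon
  have stepA := @twf_r2_fixed_E0 P A hA
  rw [← mzj_fr_map P] at stepA hcon
  have hp5 := P.hp5
  obtain ⟨T, hpT, hT0⟩ := twf_r2_exists_not_E0 P.pp (by omega) P.freyCurveInt
    (mzj_fr_Δ_ne_zero P) Nat.prime_two (by omega) (mzj_fr_two_dvd_Δ P) (mzj_fr_c₄_odd P) A hA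
  apply hT0
  rcases T with _ | ⟨x, y, h⟩
  · exact Or.inl rfl
  · have hx : 1 ≤ A.valuation x := stepA h hpT (fun σ hσ => hcon σ hσ _ hpT)
    rw [s58m_inZeroComponentAt_iff]
    have ha1 : ((s58_WQ P.freyCurveInt)⁄s58_Qb).a₁ = 1 := by
      show ((P.freyCurveInt.map (Int.castRingHom ℚ)).map (algebraMap ℚ s58_Qb)).a₁ = 1
      rw [WeierstrassCurve.map_a₁, WeierstrassCurve.map_a₁, mzj_fr_a₁]
      simp
    have ha3 : ((s58_WQ P.freyCurveInt)⁄s58_Qb).a₃ = 0 := by
      show ((P.freyCurveInt.map (Int.castRingHom ℚ)).map (algebraMap ℚ s58_Qb)).a₃ = 0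
      rw [WeierstrassCurve.map_a₃, WeierstrassCurve.map_a₃, mzj_fr_a₃]
      simp
    exact twf_r2_mem_E0_of_unit (s58m_model P.freyCurveInt A) (frey2_val_two_lt_one A hA)
      ha1 ha3 h hx

/-- **`E[p]` of the Frey curve is RAMIFIED at `2`.** -/
theorem twf_r2_main (P : FreyPackage) : ¬ P.GaloisRepUnramifiedAt 2 := by
  intro hunr
  obtain ⟨A, hA⟩ := twf_r2_exists_place 2 Nat.prime_two
  obtain ⟨σ, hσ, T, hpT, hne⟩ := twf_r2_exists P A hA
  have hmem : T ∈ Submodule.torsionBy ℤ (P.freyCurve⁄Qbar).Point P.p := by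
    rw [Submodule.mem_torsionBy_iff, natCast_zsmul]; exact hpT
  have := hunr A hA σ hσ ⟨T, hmem⟩
  exact hne (congrArg Subtype.val this)

end Main

end Fermat.Agent.TW
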