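/-
Project ONE MACHINE (S43), block [F] EASY, cell [F-in] ENTRY, VERSION 2 (helper15).  Prefix `twfe_`.

`twfe_entry2 : s43t_Entry2_stmt`  (the v2 seam of `S43/Top/HardSeams3.lean`), UNCONDITIONAL.

On top of `TW/Easy/Entry.lean` (v1):
* [PIVOT-RAM] is now a theorem: `twf_r2_main`, `twf_r2_exists` (helper16, `TW/Easy/RamTwo.lean`);
* `twt_NonEis θ` from `lrv_nonEis_model` (LR/NonEis);
* `twt_TWHyp ρ̄` (and absolute irreducibility) from `twt_tw_of_transvection` (helper9): an inertia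
  element `σ` at `2` is a NONTRIVIAL TRANSVECTION on `E[p]`: `σ ≠ 1` (`twf_r2_exists`) and
  `(σ − 1)² = 0` (`twfe_inertia_two_sq`, from S13's `l2_sub_mem_E0`, `l2_fixed_of_E0`,
  `wr_noTorsion_two`);
* unramified at EVERY `ℓ ≠ 2, p` (S05) and `twt_AllHard` (from `s43t_AllHard`), transported to
  `ρ̄ = W_ℚ[p]`.
-/
import Mathlib
import Fermat.Agent.S43.Top.HardSeams3
import Fermat.Agent.TW.Top.Transvection
import Fermat.Agent.TW.Easy.Entry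
import Fermat.Agent.TW.Easy.RamTwo
import Fermat.Agent.LR.NonEis.Final
import Fermat.Agent.S13.Wiring

set_option autoImplicit false
set_option linter.unusedSectionVars false
set_option linter.style.haveILetI false
set_option synthInstance.maxHeartbeats 400000
set_option maxHeartbeats 1000000

noncomputable section

namespace Fermat.Agent.TW

open WeierstrassCurve WeierstrassCurve.Affine WeierstrassCurve.Affine.Point
open Fermat.Agent.S43 Fermat.Agent.S44 Fermat.Agent.S58 Fermat.Agent.S13 Fermat.Agent.JT3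
open Fermat.Agent.LR ModularCurve Polynomial
open scoped WeierstrassCurve.Affine

local notation "Qb" => AlgebraicClosure ℚ
local notation "GQ" => (AlgebraicClosure ℚ ≃ₐ[ℚ] AlgebraicClosure ℚ)

/-- Instance-path repair: `ℚ̄` is algebraic over `ℚ`. -/
local instance twfeQbarIsAlgebraic : Algebra.IsAlgebraic ℚ (AlgebraicClosure ℚ) :=
  AlgebraicClosure.isAlgebraic ℚ

/-- an inertia element at `2` acts on `E[p]` (Frey curve) through a transvection: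
`σ • (σ • x - x) = σ • x - x`. -/
theorem twfe_inertia_two_sq (P : FreyPackage) (A : ValuationSubring Qb) (hA : A.LiesOverPrime 2)
    (σ : GQ) (hσ : σ ∈ A.inertiaSubgroupIn ℚ) (x : s43t_Tors P) :
    σ • (σ • x - x) = σ • x - x := by
  set d : s43t_Tors P := σ • x - x with hd
  have hdval : (d : (P.freyCurve⁄Qb).Point) = σ • (x : (P.freyCurve⁄Qb).Point) - x := rfl
  have hpd : P.p • (d : (P.freyCurve⁄Qb).Point) = 0 := by
    have h := (Submodule.mem_torsionBy_iff _ _).1 d.2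
    rw [← natCast_zsmul]
    exact h
  apply Subtype.ext
  show σ • (d : (P.freyCurve⁄Qb).Point) = d
  rcases l2_sub_mem_E0 P A hA hσ (x : (P.freyCurve⁄Qb).Point) with h0 | ⟨X, Y, H, hD, hX⟩
  · rw [hdval, h0]
    exact Fermat.Agent.S05.ga_smul_zero σ
  · rw [hdval, hD]
    refine l2_fixed_of_E0 P A hA hσ (fun T hT hpT => wr_noTorsion_two A hA T hT hpT) H ?_ hX
    rw [← hD, ← hdval]
    exact hpd

/-- **[F-in] ENTRY, version 1**, unconditional. -/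
theorem twfe_entry_main : s43t_Entry_stmt := twfe_entry twf_r2_main

/-- a transvection on `E[p]` is a transvection on `W₂[p]` -/
theorem twfe_sq_transfer (E W₂ : WeierstrassCurve ℚ) (C₀ : VariableChange ℚ) (hC : C₀ • E = W₂)
    (hΔ : E.Δ ≠ 0) (p : ℕ) (σ : GQ)
    (h : ∀ x : Submodule.torsionBy ℤ (E⁄Qb).Point p, σ • (σ • x - x) = σ • x - x) :
    (galoisRepModuleEnd (K := Qb) ℚ W₂ p σ - 1) * (galoisRepModuleEnd (K := Qb) ℚ W₂ p σ - 1)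
      = 0 := by
  refine LinearMap.ext fun y => ?_
  obtain ⟨x, rfl⟩ := twfe_torsHom_surjective E W₂ C₀ hC hΔ p y
  have hstep : ∀ z : Submodule.torsionBy ℤ (E⁄Qb).Point p,
      (galoisRepModuleEnd (K := Qb) ℚ W₂ p σ - 1) (s44b_torsHom E W₂ C₀ hC hΔ p z) =
        s44b_torsHom E W₂ C₀ hC hΔ p (σ • z - z) := by
    intro z
    rw [LinearMap.sub_apply, Module.End.one_apply, galoisRepModuleEnd_apply, map_sub,
      s44b_torsHom_smul]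
  rw [Module.End.mul_apply, hstep, hstep, LinearMap.zero_apply, h x, sub_self, _root_.map_zero]

/-- **[F-in] ENTRY, version 2.** -/
theorem twfe_entry2 : s43t_Entry2_stmt := by
  classical
  intro P _ N _ hcond hpN hirr hmod hall
  have h2N : 2 ∣ N := twfe_two_dvd P (twf_r2_main P) N hirr hmod
  obtain ⟨f, W, 𝔪, hf, hW, h𝔪, hp𝔪, hcong⟩ := hmod
  have hΔE : P.freyCurve.Δ ≠ 0 := Fermat.Agent.S05.freyCurve_Δ_ne_zero P
  haveI : P.freyCurve.IsElliptic := ⟨isUnit_iff_ne_zero.mpr hΔE⟩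
  have hΔ : W.Δ ≠ 0 := lrvc_Δ_ne_zero hW
  have hirrW : W.ModRepIsIrreducible P.p := lrvc_modRepIsIrreducible hW hirr
  have hp2 : P.p ≠ 2 := by have := P.hp5; omega
  have hN0 : N ≠ 0 := NeZero.ne N
  -- the set `S`
  set S : Finset ℕ := insert P.p W.Δ.natAbs.primeFactors with hS
  have hpS : P.p ∈ S := Finset.mem_insert_self _ _
  have hmemS : ∀ ℓ : ℕ, ℓ.Prime → ¬ W.IsGoodPrimeFor ℓ → ℓ ∈ S := by
    intro ℓ hℓ hbad
    have hd : (ℓ : ℤ) ∣ W.Δ := not_not.mp hbad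
    exact Finset.mem_insert_of_mem
      (Nat.mem_primeFactors.mpr ⟨hℓ, Int.natCast_dvd.mp hd, Int.natAbs_ne_zero.mpr hΔ⟩)
  have hgoodS : ∀ ℓ : ℕ, ℓ.Prime → ℓ ∉ S → W.IsGoodPrimeFor ℓ := fun ℓ hℓ hℓS => by
    by_contra h
    exact hℓS (hmemS ℓ hℓ h)
  have hbadS : ∀ ℓ ∈ S, ℓ ≠ P.p → ¬ W.IsGoodPrimeFor ℓ := by
    intro ℓ hℓS hℓp hgood
    rcases Finset.mem_insert.mp hℓS with h | h
    · exact hℓp h
    · exact hgood (Int.natCast_dvd.mpr (Nat.dvd_of_mem_primeFactors h))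
  have hNS : ∀ ℓ : ℕ, ℓ.Prime → ℓ ∣ N → ℓ ∈ S := fun ℓ hℓ hℓN =>
    hmemS ℓ hℓ (twf_not_good_of_dvd_level P hcond hℓ hℓN W hW)
  have hNS' : ∀ ℓ : ℕ, ℓ.Prime → ℓ ∣ N → ℓ ∈ (↑S : Set ℕ) := fun ℓ hℓ hℓN =>
    Finset.mem_coe.mpr (hNS ℓ hℓ hℓN)
  have hpS' : ∀ ℓ : ℕ, ℓ ∉ (↑S : Set ℕ) → ℓ ≠ P.p := fun ℓ hℓS h =>
    hℓS (by rw [h]; exact Finset.mem_coe.mpr hpS)
  have hgoodS' : ∀ ℓ : ℕ, ℓ.Prime → ℓ ∉ (↑S : Set ℕ) → W.IsGoodPrimeFor ℓ := fun ℓ hℓ hℓS =>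
    hgoodS ℓ hℓ (fun h => hℓS (Finset.mem_coe.mpr h))
  -- the eigensystem
  obtain ⟨θ, hθ⟩ := twfe_exists_theta P.pp (↑S : Set ℕ) hNS' hf 𝔪 h𝔪 hp𝔪
    (fun ℓ => W.apOfModel ℓ)
    (fun ℓ hℓ hℓN hℓS => hcong ℓ hℓ (hgoodS' ℓ hℓ hℓS) hℓN (hpS' ℓ hℓS))
  -- a non-Eisenstein prime
  obtain ⟨ℓ₀, hℓ₀, -, hℓ₀S, -, hℓ₀ne⟩ := lrv_nonEis_model P.freyCurve hW P.pp hp2 hirr S
  -- the E-side
  obtain ⟨hfrobV, -⟩ := s44be_main W hΔ P.p hp2 hirrW hf 𝔪 h𝔪 hp𝔪 hcong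
  obtain ⟨C, hC⟩ := hW
  -- a nontrivial transvection at `2`
  obtain ⟨A₂, hA₂⟩ := twf_r2_exists_place 2 Nat.prime_two
  obtain ⟨σ₂, hσ₂, T₂, hpT₂, hneT₂⟩ := twf_r2_exists P A₂ hA₂
  have h2k : (2 : ZMod P.p) ≠ 0 := by
    intro h
    have h' : ((2 : ℕ) : ZMod P.p) = 0 := by exact_mod_cast h
    rw [ZMod.natCast_eq_zero_iff] at h'
    have := Nat.le_of_dvd (by norm_num) h'
    have := P.hp5
    omega
  have hirrρ : (twfe_rhobar W hΔ P.p hp2).IsIrreducible := by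
    intro W' hW'
    exact hirrW.2 W' (fun σ x hx => hW' σ x hx)
  have hσ₂1 : (twfe_rhobar W hΔ P.p hp2).ρ σ₂ ≠ 1 := by
    intro h
    have hmem : T₂ ∈ Submodule.torsionBy ℤ (P.freyCurve⁄Qb).Point P.p := by
      rw [Submodule.mem_torsionBy_iff, natCast_zsmul]; exact hpT₂
    have := twfe_fix_transfer_back P.freyCurve (W.map (Int.castRingHom ℚ)) C hC hΔE P.p σ₂
      (fun y => LinearMap.congr_fun h y) ⟨T₂, hmem⟩
    exact hneT₂ (congrArg Subtype.val this)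
  have hσ₂u : ((twfe_rhobar W hΔ P.p hp2).ρ σ₂ - 1) * ((twfe_rhobar W hΔ P.p hp2).ρ σ₂ - 1) = 0 :=
    twfe_sq_transfer P.freyCurve (W.map (Int.castRingHom ℚ)) C hC hΔE P.p σ₂
      (fun x => twfe_inertia_two_sq P A₂ hA₂ σ₂ hσ₂ x)
  obtain ⟨habs, hTW⟩ := twt_tw_of_transvection (twfe_rhobar W hΔ P.p hp2) h2k hirrρ σ₂ hσ₂1 hσ₂u
  refine ⟨W, S, θ, twfe_rhobar W hΔ P.p hp2, ⟨C, hC⟩, ⟨hpS, hbadS, hgoodS⟩, hNS, h2N,
    ?_, ?_, ?_, habs, hTW, ?_, ?_, ?_⟩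
  · -- `IsFreyEig`
    intro ℓ hℓ hℓN hℓS
    rw [hθ ℓ hℓ hℓN hℓS]
    rfl
  · -- `Compat`
    intro ℓ hℓ hℓN hℓS A hA σ hσ
    obtain ⟨htr, hdet⟩ := hfrobV ℓ hℓ (hgoodS' ℓ hℓ hℓS) hℓN (hpS' ℓ hℓS) A hA σ hσ
    have h := s58z_charpoly_two (twfe_rhobar W hΔ P.p hp2).finrank_eq
      ((twfe_rhobar W hΔ P.p hp2).ρ σ)
    rw [h, hθ ℓ hℓ hℓN hℓS]
    have e1 : LinearMap.trace (ZMod P.p) (twfe_rhobar W hΔ P.p hp2).V
        ((twfe_rhobar W hΔ P.p hp2).ρ σ) = ((W.apOfModel ℓ : ℤ) : ZMod P.p) := htr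
    have e2 : LinearMap.det ((twfe_rhobar W hΔ P.p hp2).ρ σ) = ((ℓ : ℕ) : ZMod P.p) := hdet
    rw [e1, e2]
  · -- `NonEis`
    have hℓ₀S' : ℓ₀ ∉ (↑S : Set ℕ) := fun h => hℓ₀S (Finset.mem_coe.mp h)
    have hℓ₀N : ¬ ℓ₀ ∣ N := fun h => hℓ₀S (hNS ℓ₀ hℓ₀ h)
    refine ⟨ℓ₀, hℓ₀, hℓ₀N, hℓ₀S', ?_⟩
    rw [hθ ℓ₀ hℓ₀ hℓ₀N hℓ₀S']
    intro h
    apply hℓ₀ne
    rw [← ZMod.intCast_zmod_eq_zero_iff_dvd]
    push_cast
    rw [h]
    ring
  · -- ramified at `2`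
    intro h
    apply twf_r2_main P
    intro A hA σ hσ x
    refine twfe_fix_transfer_back P.freyCurve (W.map (Int.castRingHom ℚ)) C hC hΔE P.p σ
      (fun y => ?_) x
    have := h A hA σ hσ
    exact LinearMap.congr_fun this y
  · -- unramified at every `ℓ ≠ 2, p`
    intro ℓ hℓ hℓ2 hℓp A hA σ hσ
    have hunrℓ := Fermat.Agent.S05.result P hℓ hℓ2 hℓp
    refine LinearMap.ext fun y => ?_
    exact twfe_fix_transfer P.freyCurve (W.map (Int.castRingHom ℚ)) C hC hΔE P.p σ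
      (fun x => hunrℓ A hA σ hσ x) y
  · -- all odd primes of `N` are hard
    intro ℓ hℓ hℓN hℓ2
    obtain ⟨h1, hsc⟩ := hall ℓ hℓ hℓN hℓ2
    refine ⟨h1, fun A hA σ hσ => ?_⟩
    obtain ⟨c, hc⟩ := hsc A hA σ hσ
    refine ⟨((c : ℤ) : ZMod P.p), LinearMap.ext fun y => ?_⟩
    have := twfe_scalar_transfer P.freyCurve (W.map (Int.castRingHom ℚ)) C hC hΔE P.p σ c
      (fun x => hc x) y
    rw [LinearMap.smul_apply, Module.End.one_apply, Int.cast_smul_eq_zsmul]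
    exact this

end Fermat.Agent.TW
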