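/-
Project ONE MACHINE (S43), block [F] EASY, leaves F0a/F0c (helper15).  Prefix `twf_`.

TOP WIRING OF S43 ON THE `J₀`-SIDE (everything below is closed; only `twf_New_stmt` is a hypothesis):

* `twf_level_of_map_good` : variant of `s44c_level_of_map_tors` in which the primes `ℓ ∣ N`, `ℓ ∤ M` are
  allowed as soon as they are BAD for the integral model `W` (no congruence is required there);
* `twf_old0` **[OLD0] at `q`** : `N = M q`, `q ∤ M`, `q ∣ a b c`; a copy `ι : E[p] → J₀(M q)` which is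
  NOT killed by both degeneracy push-forwards `(α_q)_*, (β_q)_* : J₀(M q) → J₀(M)` gives
  `P.ModularRepOfLevel M` (no hypothesis at `q`: `q` is bad for every integral model,
  `twf_not_good_of_dvd_abc`);
* `twf_New_stmt` **[NEW]** (the open part = Mazur's principle + the machine): `p ∤ M q`, `q ≠ 2, p`,
  `M q` a conductor level, `E[p]` irreducible and unramified at `q`, and a copy of `E[p]` in
  `ker (α_q)_* ∩ ker (β_q)_* ⊆ J₀(M q)` ⟹ `P.ModularRepOfLevel M'` for some `M' ∣ M`;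
* `twf_s43_of_new` : **[NEW] ⟹ the frozen statement S43** (K0: S44 removes `p` first; [BLR]
  `s44b_blr` produces the copy; [OLD0] at `q`).
-/
import Mathlib
import Fermat.Agent.S44
import Fermat.Agent.S44.BLR.Main
import Fermat.Agent.S44.Old0.Frame
import Fermat.Agent.S35.PMaps.Equiv
import Fermat.Agent.TW.Easy.BadPrime

set_option autoImplicit false
set_option linter.unusedSectionVars false
set_option linter.style.haveILetI false

noncomputable section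

namespace Fermat.Agent.TW

open WeierstrassCurve WeierstrassCurve.Affine WeierstrassCurve.Affine.Point ModularCurve
open Fermat.Agent.S44 Fermat.Agent.S35

/-- variant of `s44c_level_of_map_tors`: the primes of `N` outside `M` only have to be bad for `W` -/
theorem twf_level_of_map_good (P : FreyPackage) (N M : ℕ) [NeZero N] [NeZero M]
    (W : WeierstrassCurve ℤ) (ι : s44_Tors P →+ JZero N) (hι : s44_IsCopy P N W ι)
    (hNM : ∀ ℓ : ℕ, ℓ.Prime → W.IsGoodPrimeFor ℓ → ¬ ℓ ∣ M → ℓ ≠ P.p → ¬ ℓ ∣ N)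
    (φ : JZero N →+ JZero M)
    (hφ : ∀ ℓ : Nat.Primes, ¬ (ℓ : ℕ) ∣ N → ∀ z : JZero N, P.p • z = 0 →
      φ (heckeOperatorBar N ℓ z) = heckeOperatorBar M ℓ (φ z))
    (y : s44_Tors P) (hy : φ (ι y) ≠ 0) : P.ModularRepOfLevel M := by
  have hpy : P.p • ι y = 0 := by rw [← map_nsmul, s44_tors_smul, _root_.map_zero]
  refine s44c_level_of_eigen P M W hι.model (φ (ι y)) hy ?_ ?_
  · rw [← map_nsmul, hpy, _root_.map_zero]
  · intro ℓ hgood hℓM hℓp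
    have hℓN : ¬ (ℓ : ℕ) ∣ N := hNM ℓ ℓ.2 hgood hℓM hℓp
    rw [← hφ ℓ hℓN (ι y) hpy, hι.eigen ℓ hgood hℓN hℓp y, map_zsmul]

/-- **[OLD0] at `q`.** -/
theorem twf_old0 (P : FreyPackage) (M q : ℕ) [NeZero M] [NeZero q] [NeZero (M * q)]
    (hq : q.Prime) (hqM : ¬ q ∣ M) (hqabc : (q : ℤ) ∣ P.a * P.b * P.c)
    (W : WeierstrassCurve ℤ) (ι : s44_Tors P →+ JZero (M * q)) (hι : s44_IsCopy P (M * q) W ι)
    (hy : ∃ y : s44_Tors P, s35p_P1J M q (ι y) ≠ 0 ∨ s35p_P2J M q (ι y) ≠ 0) :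
    P.ModularRepOfLevel M := by
  have hNM : ∀ ℓ : ℕ, ℓ.Prime → W.IsGoodPrimeFor ℓ → ¬ ℓ ∣ M → ℓ ≠ P.p → ¬ ℓ ∣ M * q := by
    intro ℓ hℓ hgood hℓM _ h
    rcases (Nat.Prime.dvd_mul hℓ).mp h with h1 | h1
    · exact hℓM h1
    · have : ℓ = q := (Nat.prime_dvd_prime_iff_eq hℓ hq).mp h1
      subst this
      exact twf_not_good_of_dvd_abc P hℓ hqabc W hι.model hgood
  obtain ⟨y, hy | hy⟩ := hy
  · refine twf_level_of_map_good P (M * q) M W ι hι hNM (s35p_P1J M q) ?_ y hy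
    intro ℓ hℓN z hz
    haveI : NeZero (ℓ : ℕ) := ⟨ℓ.2.ne_zero⟩
    exact s35p_P1J_hecke M q ℓ hq hqM ℓ.2 hℓN z P.p P.hp0 hz
  · refine twf_level_of_map_good P (M * q) M W ι hι hNM (s35p_P2J M q) ?_ y hy
    intro ℓ hℓN z hz
    haveI : NeZero (ℓ : ℕ) := ⟨ℓ.2.ne_zero⟩
    exact s35p_P2J_hecke M q ℓ hq hqM ℓ.2 hℓN z P.p P.hp0 hz

/-- **[NEW]**: the open part of S43 on the `J₀`-side (Mazur's principle + the hard case). -/
def twf_New_stmt : Prop :=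
  ∀ (P : FreyPackage) (M q : ℕ) [NeZero M] [NeZero q] [NeZero (M * q)],
    q.Prime → q ≠ 2 → q ≠ P.p → ¬ q ∣ M → ¬ P.p ∣ M →
    P.IsConductorLevel (M * q) →
    GaloisRepIsIrreducible (K := AlgebraicClosure ℚ) ℚ P.freyCurve P.p →
    P.GaloisRepUnramifiedAt q →
    ∀ (W : WeierstrassCurve ℤ) (ι : s44_Tors P →+ JZero (M * q)), s44_IsCopy P (M * q) W ι →
      (∀ y : s44_Tors P, s35p_P1J M q (ι y) = 0 ∧ s35p_P2J M q (ι y) = 0) →
      ∃ M' : ℕ, M' ∣ M ∧ P.ModularRepOfLevel M'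

/-- S43 when `p ∤ N`. -/
theorem twf_s43_of_new_aux (hNew : twf_New_stmt)
    (P : FreyPackage) {N q : ℕ} (hcond : P.IsConductorLevel N) (hq : q.Prime) (hq2 : q ≠ 2)
    (hqp : q ≠ P.p) (hqN : q ∣ N) (hpN : ¬ P.p ∣ N)
    (hirr : GaloisRepIsIrreducible (K := AlgebraicClosure ℚ) ℚ P.freyCurve P.p)
    (hmod : P.ModularRepOfLevel N) (hunr : P.GaloisRepUnramifiedAt q) :
    ∃ M : ℕ, M ∣ N ∧ ¬ q ∣ M ∧ P.ModularRepOfLevel M := by
  obtain ⟨M, rfl⟩ := hqN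
  have hN0 : q * M ≠ 0 := hcond.pos.ne'
  have hM0 : M ≠ 0 := fun h => hN0 (by rw [h, mul_zero])
  have hqM : ¬ q ∣ M := by
    rintro ⟨k, rfl⟩
    exact hcond.sq_not_dvd hq ⟨k, by ring⟩
  have e : q * M = M * q := mul_comm _ _
  rw [e] at hcond hmod hpN
  have hpM : ¬ P.p ∣ M := fun h => hpN (Dvd.dvd.mul_right h q)
  haveI : NeZero M := ⟨hM0⟩
  haveI : NeZero q := ⟨hq.ne_zero⟩
  haveI : NeZero (M * q) := ⟨by rw [← e]; exact hN0⟩
  have hqabc : (q : ℤ) ∣ P.a * P.b * P.c := hcond.support q hq (Dvd.intro_left M rfl)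
  obtain ⟨W, ι, hι⟩ := s44b_blr P (M * q) hirr hmod
  by_cases hold : ∃ y : s44_Tors P, s35p_P1J M q (ι y) ≠ 0 ∨ s35p_P2J M q (ι y) ≠ 0
  · exact ⟨M, ⟨q, (mul_comm _ _)⟩, hqM, twf_old0 P M q hq hqM hqabc W ι hι hold⟩
  · push Not at hold
    obtain ⟨M', hM'M, hM'⟩ := hNew P M q hq hq2 hqp hqM hpM hcond hirr hunr W ι hι hold
    exact ⟨M', hM'M.trans ⟨q, (mul_comm _ _)⟩, fun h => hqM (h.trans hM'M), hM'⟩

/-- **[NEW] ⟹ the frozen statement S43** (K0: S44 removes `p` first). -/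
theorem twf_s43_of_new (hNew : twf_New_stmt)
    (P : FreyPackage) {N q : ℕ} (hcond : P.IsConductorLevel N) (hq : q.Prime) (hq2 : q ≠ 2)
    (hqp : q ≠ P.p) (hqN : q ∣ N)
    (hirr : GaloisRepIsIrreducible (K := AlgebraicClosure ℚ) ℚ P.freyCurve P.p)
    (hmod : P.ModularRepOfLevel N) (hunr : P.GaloisRepUnramifiedAt q) :
    ∃ M : ℕ, M ∣ N ∧ ¬ q ∣ M ∧ P.ModularRepOfLevel M := by
  by_cases hpN : P.p ∣ N
  · obtain ⟨M₁, hM₁N, hpM₁, hmod₁⟩ := Fermat.Agent.S44.result P hcond hpN hirr hmod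
    by_cases hqM₁ : q ∣ M₁
    · have hM₁pos : 0 < M₁ := Nat.pos_of_ne_zero (fun h => by
        rw [h] at hM₁N
        exact hcond.pos.ne' (Nat.eq_zero_of_zero_dvd hM₁N))
      obtain ⟨M, hMM₁, hqM, hM⟩ := twf_s43_of_new_aux hNew P (hcond.of_dvd hM₁N hM₁pos) hq hq2 hqp
        hqM₁ hpM₁ hirr hmod₁ hunr
      exact ⟨M, hMM₁.trans hM₁N, hqM, hM⟩
    · exact ⟨M₁, hM₁N, hqM₁, hmod₁⟩
  · exact twf_s43_of_new_aux hNew P hcond hq hq2 hqp hqN hpN hirr hmod hunr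

end Fermat.Agent.TW
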